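import Fermat.Agent.RayPadicL.Gen

/-!
# The transform of the stripped residue function at the cusps over infinity

For `B` in `Γ₀(p)` the coefficient at `(c, ν)` of the weight of the transform of the stripped
function at level `p N` is `p ^ n` times that at level `N`, if `c` lies in the lattice of level `N`
and `ν` is prime to `p`, and zero otherwise. On `Γ(N) ∩ Γ₀(p)` the weight is invariant.
-/

set_option autoImplicit false
set_option linter.unusedSectionVars false
set_option linter.style.haveILetI false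

noncomputable section

open NumberField InfinitePlace IsDedekindDomain Module
open scoped nonZeroDivisors Classical MatrixGroups

namespace FA.RayPadicL

open FA.HeckeFE FA.SiegelKlingen FA.KlingenRay FA.KlingenIntegral
open FA.HeckeCharFE (trChar trChar_add trChar_mul_eq_one modUnit coe_modUnit)
open FA.ClassIntegral (dualLat)
open FA.KlingenZero (wHat sum_residues_add)
open FA.PadicEulerFactor (pMul mem_pMul add_mem_lat int_mul_mem)
open CongruenceSubgroup (Gamma Gamma1 Gamma_mem)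

variable {K : Type*} [Field K] [NumberField K] [IsTotallyReal K]
variable (J₀ : (FractionalIdeal (𝓞 K)⁰ K)ˣ)

theorem dual_dualIdeal : dualIdeal (dualIdeal J₀) = J₀ :=
  Units.ext (by rw [coe_dualIdeal, coe_dualIdeal, FractionalIdeal.dual_dual])

theorem pMul_dualLat (M : ℕ) [NeZero M] : pMul (dualLat J₀ M) M = dualIdeal J₀ := by
  refine Units.ext (FractionalIdeal.ext fun x => ?_)
  have hM : (M : K) ≠ 0 := Nat.cast_ne_zero.2 (NeZero.ne M)
  show x ∈ (pMul (dualLat J₀ M) M : Set K) ↔ x ∈ (dualIdeal J₀ : Set K)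
  rw [mem_pMul]
  refine ⟨fun h => ?_, fun h => ?_⟩
  · have := FA.KlingenTwo.natCast_mul_mem_dual J₀ M h
    rwa [mul_div_cancel₀ _ hM] at this
  · refine (FractionalIdeal.mem_dual (A := ℤ) (K := ℚ) (pMul J₀ M).ne_zero).2 fun y hy => ?_
    obtain ⟨z, hz⟩ := (FractionalIdeal.mem_dual (A := ℤ) (K := ℚ) J₀.ne_zero).1 h (y / M)
      (mem_pMul.1 hy)
    refine ⟨z, hz.trans ?_⟩
    rw [Algebra.traceForm_apply, Algebra.traceForm_apply]
    congr 1
    field_simp

theorem dual_pMul_dualLat (M : ℕ) [NeZero M] : dualIdeal (pMul (dualLat J₀ M) M) = J₀ := by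
  rw [pMul_dualLat, dual_dualIdeal]

theorem mem_dualLat {M : ℕ} [NeZero M] {x : K} :
    x ∈ (dualLat J₀ M : Set K) ↔ (M : K) * x ∈ (dualIdeal J₀ : Set K) := by
  rw [← pMul_dualLat J₀ M, mem_pMul,
    mul_div_cancel_left₀ _ (Nat.cast_ne_zero.2 (NeZero.ne M) : (M : K) ≠ 0)]

variable {J₀} {p N : ℕ} [NeZero p] [NeZero N]

theorem dualLat_le {x : K} (hx : x ∈ (dualLat J₀ N : Set K)) :
    x ∈ (dualLat J₀ (p * N) : Set K) := by
  rw [mem_dualLat] at hx ⊢
  have := int_mul_mem (B := dualIdeal J₀) (p : ℤ) hx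
  push_cast at this ⊢
  rwa [show (p : K) * N * x = (N : K) * x * p by ring]

/-- A multiple prime to `p` in the smaller lattice. -/
theorem mem_of_mul {x : K} (hx : x ∈ (dualLat J₀ (p * N) : Set K)) {u : ℤ}
    (hu : IsCoprime u (p : ℤ)) (h : (N : K) * x * (u : K) ∈ (dualIdeal J₀ : Set K)) :
    x ∈ (dualLat J₀ N : Set K) := by
  rw [mem_dualLat] at hx ⊢
  obtain ⟨a, b, hab⟩ := hu
  have e := congrArg (Int.cast : ℤ → K) hab
  push_cast at e hx
  rw [show (N : K) * x = (N : K) * x * (u : K) * (a : K) + (p : K) * N * x * (b : K) by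
    linear_combination (-((N : K) * x)) * e]
  exact add_mem_lat (int_mul_mem _ h) (int_mul_mem _ hx)

theorem lat_zero_mul {x : K} (i : ℤ) (hx : x ∈ (J₀ : Set K)) : (i : K) * x ∈ (J₀ : Set K) := by
  rw [mul_comm]
  exact int_mul_mem i hx

/-- Translations that multiply a sum by a number. -/
theorem sum_eq_zero_of_translate {J : (FractionalIdeal (𝓞 K)⁰ K)ˣ} {M : ℕ} [NeZero M] {g : K → ℂ}
    (hg : ∀ x ∈ (J : Set K), ∀ y ∈ (pMul J M : Set K), g (x + y) = g x) {z : K}
    (hz : z ∈ (J : Set K)) {t : ℂ} (ht : t ≠ 1) (he : ∀ x ∈ (J : Set K), g (x + z) = t * g x) :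
    ∑ r ∈ residues J M, g r = 0 := by
  have e := sum_residues_add J M g hg hz
  rw [Finset.sum_congr rfl fun r hr => he r (residues_mem J M hr), ← Finset.mul_sum] at e
  exact (mul_eq_zero.1 (show (t - 1) * ∑ r ∈ residues J M, g r = 0 by
    rw [sub_mul, one_mul, e, sub_self])).resolve_left (sub_ne_zero.2 ht)

/-- An element is in the dual if all the characters are trivial on it. -/
theorem mem_dual_of_trChar (J : (FractionalIdeal (𝓞 K)⁰ K)ˣ) {x : K}
    (h : ∀ z ∈ (J : Set K), trChar (x * z) = 1) : x ∈ (dualIdeal J : Set K) :=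
  (FractionalIdeal.mem_dual (A := ℤ) (K := ℚ) J.ne_zero).2 fun z hz => by
    obtain ⟨n, hn⟩ := FA.ClassIntegral.trChar_eq_one (h z hz)
    exact ⟨n, by rw [Algebra.traceForm_apply, hn]; simp⟩

/-- The residues of level `p N` in the smaller lattice. -/
theorem sum_residues_sub {g : K → ℂ}
    (hg : ∀ x ∈ (dualLat J₀ N : Set K), ∀ y ∈ (dualIdeal J₀ : Set K), g (x + y) = g x) :
    (∑ d ∈ residues (dualLat J₀ (p * N)) (p * N), if d ∈ (dualLat J₀ N : Set K) then g d else 0) =
      ∑ r ∈ residues (dualLat J₀ N) N, g r := by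
  rw [← Finset.sum_filter]
  choose ρ hρ hρu using fun (x : K) (hx : x ∈ (dualLat J₀ N : Set K)) =>
    existsUnique_residue (dualLat J₀ N) N hx
  choose σ hσ hσu using fun (x : K) (hx : x ∈ (dualLat J₀ (p * N) : Set K)) =>
    existsUnique_residue (dualLat J₀ (p * N)) (p * N) hx
  simp only [pMul_dualLat] at hρ hρu hσ hσu
  have hD : ∀ y ∈ (dualIdeal J₀ : Set K), y ∈ (dualLat J₀ N : Set K) := fun y hy => by
    rw [mem_dualLat]
    simpa using lat_zero_mul (J₀ := dualIdeal J₀) (N : ℤ) hy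
  have hin : ∀ {x : K} (hx : x ∈ (dualLat J₀ N : Set K)),
      σ x (dualLat_le hx) ∈ (dualLat J₀ N : Set K) := fun {x} hx => by
    have := sub_mem_lat _ hx (hD _ (hσ x (dualLat_le hx)).2)
    simpa using this
  refine Finset.sum_bij' (fun d hd => ρ d (Finset.mem_filter.1 hd).2)
    (fun r hr => σ r (dualLat_le (residues_mem _ _ hr))) (fun d hd => (hρ _ _).1)
    (fun r hr => Finset.mem_filter.2 ⟨(hσ _ _).1, hin (residues_mem _ _ hr)⟩)
    (fun d hd => ?_) (fun r hr => ?_) fun d hd => ?_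
  · rw [Finset.mem_filter] at hd
    refine (hσu _ _ d ⟨hd.1, ?_⟩).symm
    have := sub_mem_lat _ (zero_mem_ideal _) (hρ d hd.2).2
    simpa using this
  · refine (hρu _ _ r ⟨hr, ?_⟩).symm
    have := sub_mem_lat _ (zero_mem_ideal _) (hσ r (dualLat_le (residues_mem _ _ hr))).2
    simpa using this
  · rw [Finset.mem_filter] at hd
    have := hg _ (residues_mem _ _ (hρ d hd.2).1) _ (hρ d hd.2).2
    rwa [add_sub_cancel] at this

theorem resCount_eq : FA.ClassIntegral.resCount (Ideal.span {(N : 𝓞 K)}) J₀ (p * N) =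
    p ^ finrank ℚ K := by
  have h0 : Ideal.span {(N : 𝓞 K)} ≠ ⊥ := by simp [NeZero.ne N]
  have h := FA.ClassIntegral.absNorm_mul_resCount' (J := J₀) (N := p * N) h0
    (Ideal.mem_span_singleton.2 ⟨(p : 𝓞 K), by push_cast; ring⟩)
  rw [show (N : 𝓞 K) = algebraMap ℤ (𝓞 K) (N : ℤ) by simp, Ideal.absNorm_span_singleton,
    Algebra.norm_algebraMap, Int.natAbs_pow, Int.natAbs_natCast, RingOfIntegers.rank K,
    mul_pow, mul_comm (p ^ _) (N ^ _)] at h
  rw [← Nat.mul_left_cancel (pow_pos (NeZero.pos N) _) h]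
  simp

theorem mul_modUnit_span (M : ℕ) [NeZero M] :
    J₀ * modUnit (Ideal.span {(M : 𝓞 K)}) = pMul J₀ M := by
  refine Units.ext ?_
  rw [Units.val_mul, coe_modUnit (by simp [NeZero.ne M] : Ideal.span {(M : 𝓞 K)} ≠ ⊥),
    FractionalIdeal.coeIdeal_span_singleton, pMul, Units.val_mul, Units.val_mk0, map_natCast,
    mul_comm]

variable {k : ℕ} {res : K → ℂ}

/-- **The transform at level `p N` of a function of level `N`.** -/
theorem hatSum_level (h : IsPer J₀ N k res) {y : K} (hy : y ∈ (dualLat J₀ (p * N) : Set K)) :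
    hatSum J₀ (p * N) res y =
      if y ∈ (dualLat J₀ N : Set K) then (p : ℂ) ^ finrank ℚ K * hatSum J₀ N res y else 0 := by
  have hsub : ∀ z ∈ (pMul J₀ (p * N) : Set K), z ∈ (pMul J₀ N : Set K) := fun z hz => by
    have h1 := lat_zero_mul (p : ℤ) (mem_pMul.1 hz)
    rw [mem_pMul]
    have hp : (p : K) ≠ 0 := Nat.cast_ne_zero.2 (NeZero.ne p)
    push_cast at h1
    rwa [← div_div, div_right_comm, mul_div_cancel₀ _ hp] at h1
  have hper : ∀ x ∈ (J₀ : Set K), ∀ z ∈ (pMul J₀ (p * N) : Set K),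
      res (x + z) * trChar (y * (x + z)) = res x * trChar (y * x) := fun x hx z hz => by
    rw [h.periodic x hx z (hsub z hz), mul_add, trChar_add, trChar_mul_eq_one hy hz, mul_one]
  split_ifs with hyJ
  · have hper' : ∀ x ∈ (J₀ : Set K), ∀ z ∈ (pMul J₀ N : Set K),
        res (x + z) * trChar (y * (x + z)) = res x * trChar (y * x) := fun x hx z hz => by
      rw [h.periodic x hx z hz, mul_add, trChar_add, trChar_mul_eq_one hyJ hz, mul_one]
    have h0 : Ideal.span {(N : 𝓞 K)} ≠ ⊥ := by simp [NeZero.ne N]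
    have hmem : ((p * N : ℕ) : 𝓞 K) ∈ Ideal.span {(N : 𝓞 K)} :=
      Ideal.mem_span_singleton.2 ⟨(p : 𝓞 K), by push_cast; ring⟩
    rw [hatSum, hatSum, ← Nat.cast_pow, ← resCount_eq (J₀ := J₀) (N := N), Finset.mul_sum]
    calc ∑ x ∈ residues J₀ (p * N), res x * trChar (y * x)
        = ∑ x ∈ residues J₀ (p * N), ∑ r ∈ residues J₀ N,
            (((if x - r ∈ (pMul J₀ N : Set K) then 1 else 0 : ℕ) : ℕ) : ℂ) *
              (res r * trChar (y * r)) := by
          refine Finset.sum_congr rfl fun x hx => ?_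
          obtain ⟨r, ⟨hr, hxr⟩, hru⟩ := existsUnique_residue J₀ N (residues_mem _ _ hx)
          rw [Finset.sum_eq_single r (fun s hs hsr => by
              rw [if_neg fun hc => hsr (hru s ⟨hs, hc⟩), Nat.cast_zero, zero_mul])
            (fun hne => absurd hr hne), if_pos hxr, Nat.cast_one, one_mul]
          have := hper' r (residues_mem _ _ hr) _ hxr
          rwa [add_sub_cancel] at this
      _ = _ := by
          rw [Finset.sum_comm]
          refine Finset.sum_congr rfl fun r hr => ?_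
          rw [← Finset.sum_mul, ← Nat.cast_sum]
          congr 2
          have := FA.ClassIntegral.sum_indicator_shift (J := J₀) (N := p * N) h0 hmem
            (residues_mem J₀ N hr)
          rwa [mul_modUnit_span] at this
  · obtain ⟨z, hz, hz1⟩ : ∃ z ∈ (pMul J₀ N : Set K), trChar (y * z) ≠ 1 := by
      by_contra hcon
      push Not at hcon
      exact hyJ (mem_dual_of_trChar _ hcon)
    refine sum_eq_zero_of_translate (g := fun x => res x * trChar (y * x)) hper
      (mem_of_mem_pMul J₀ N hz) hz1 fun x hx => ?_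
    rw [h.periodic x hx z hz, mul_add, trChar_add]
    ring

theorem rowMul_inv_fst (B : SL(2, ℤ)) (c d : K) :
    (rowMul B⁻¹ (c, d)).1 = c * (B 1 1 : K) - d * (B 1 0 : K) := by
  simp [rowMul, Matrix.SpecialLinearGroup.coe_inv, Matrix.adjugate_fin_two]
  ring

theorem rowMul_inv_snd (B : SL(2, ℤ)) (c d : K) :
    (rowMul B⁻¹ (c, d)).2 = -(c * (B 0 1 : K)) + d * (B 0 0 : K) := by
  simp [rowMul, Matrix.SpecialLinearGroup.coe_inv, Matrix.adjugate_fin_two]

theorem trChar_int_mul {x : K} (hx : trChar x = 1) (i : ℤ) : trChar (x * (i : K)) = 1 := by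
  obtain ⟨n, hn⟩ := FA.ClassIntegral.trChar_eq_one hx
  refine FA.HeckeCharFE.trChar_eq_one_of_int (n := i * n) ?_
  rw [mul_comm, ← zsmul_eq_mul, map_zsmul, hn, zsmul_eq_mul]
  push_cast
  rfl

theorem isPer_level {J : (FractionalIdeal (𝓞 K)⁰ K)ˣ} {M M' j : ℕ} [NeZero M] [NeZero M']
    (e : M = M') {Φ : K → ℂ} (h : IsPer J M j Φ) : IsPer J M' j Φ := by
  subst e
  exact h

/-- The transform on the dual lattice. -/
theorem isPer_hat {M : ℕ} [NeZero M] (h : IsPer J₀ M k res) :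
    IsPer (dualLat J₀ M) M k (hatSum J₀ M res) :=
  isPer_level (mul_one M) (FA.ClassIntegral.isPer_hatSum h 1)

variable {B : SL(2, ℤ)}

/-- **The weight at a cusp over infinity.** -/
theorem wHat_strip (h : IsPer J₀ N k res) (hB : (p : ℤ) ∣ B 1 0) {c ν : K}
    (hc : c ∈ (dualLat J₀ (p * N) : Set K)) (hν : ν ∈ (J₀ : Set K)) :
    wHat (dualLat J₀ (p * N)) (p * N)
      (fun q => liftW (dualLat J₀ (p * N)) (p * N) (hatSum J₀ (p * N) (stripRes p J₀ res))
        (rowMul B⁻¹ q)) c ν =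
    if c ∈ (dualLat J₀ N : Set K) ∧ Gen p J₀ ν then (p : ℂ) ^ finrank ℚ K *
      wHat (dualLat J₀ N) N
        (fun q => liftW (dualLat J₀ N) N (hatSum J₀ N res) (rowMul B⁻¹ q)) c ν else 0 := by
  obtain ⟨γ₁, hγ⟩ := hB
  have hdet := FA.Eis.sl_det B
  have hδ : IsCoprime (B 1 1) (p : ℤ) := ⟨B 0 0, -(B 0 1 * γ₁), by rw [hγ] at hdet; linarith⟩
  have hα : IsCoprime (B 0 0) (p : ℤ) := ⟨B 1 1, -(B 0 1 * γ₁), by rw [hγ] at hdet; linarith⟩
  have hunit : (p : ℤ) ∣ B 0 0 * B 1 1 - 1 := ⟨B 0 1 * γ₁, by rw [hγ] at hdet; linarith⟩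
  have hγK : (B 1 0 : K) = (p : K) * (γ₁ : K) := by rw [hγ]; push_cast; rfl
  have hNd : ∀ d ∈ (dualLat J₀ (p * N) : Set K), (N : K) * d * (B 1 0 : K) ∈
      (dualIdeal J₀ : Set K) := fun d hd => by
    rw [mem_dualLat] at hd
    rw [hγK, show (N : K) * d * ((p : K) * γ₁) = ((p * N : ℕ) : K) * d * (γ₁ : K) by
      push_cast; ring]
    exact int_mul_mem _ hd
  by_cases hcJ : c ∈ (dualLat J₀ N : Set K)
  swap
  · rw [if_neg fun h' => hcJ h'.1, wHat, hatSum]
    refine Finset.sum_eq_zero fun d hd => ?_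
    simp only [liftW, pMul_dualLat, rowMul_inv_fst]
    rw [if_neg fun hmem => hcJ ?_, zero_mul]
    refine mem_of_mul hc hδ ?_
    rw [show (N : K) * c * (B 1 1 : K) = (c * (B 1 1 : K) - d * (B 1 0 : K)) * ((N : ℤ) : K) +
      (N : K) * d * (B 1 0 : K) by push_cast; ring]
    exact add_mem_lat (int_mul_mem _ hmem) (hNd d (residues_mem _ _ hd))
  obtain ⟨g, hg⟩ : ∃ g : K → K → ℂ, ∀ x d, g x d =
      (if c * (B 1 1 : K) - d * (B 1 0 : K) ∈ (dualIdeal J₀ : Set K) then
        trChar ((-(c * (B 0 1 : K)) + d * (B 0 0 : K)) * x) else 0) * trChar (ν * d) :=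
    ⟨_, fun _ _ => rfl⟩
  have hexp : ∀ Φ : K → ℂ, wHat (dualLat J₀ (p * N)) (p * N)
      (fun q => liftW (dualLat J₀ (p * N)) (p * N) (hatSum J₀ (p * N) Φ) (rowMul B⁻¹ q)) c ν =
      ∑ x ∈ residues J₀ (p * N), Φ x * ∑ d ∈ residues (dualLat J₀ (p * N)) (p * N), g x d := by
    intro Φ
    rw [wHat, hatSum]
    simp only [liftW, pMul_dualLat, rowMul_inv_fst, rowMul_inv_snd, hatSum, Finset.mul_sum]
    rw [Finset.sum_comm]
    refine Finset.sum_congr rfl fun d _ => ?_
    simp only [hg]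
    split_ifs
    · rw [Finset.sum_mul]
      exact Finset.sum_congr rfl fun x _ => mul_assoc _ _ _
    · simp
  have hkey : ∀ x ∈ residues J₀ (p * N),
      ∑ d ∈ residues (dualLat J₀ (p * N)) (p * N), g x d ≠ 0 → (Gen p J₀ x ↔ Gen p J₀ ν) := by
    intro x hx hne
    have hxJ := residues_mem J₀ _ hx
    obtain ⟨w, hw⟩ : ∃ w, w = (B 0 0 : K) * x + ν := ⟨_, rfl⟩
    suffices hwp : w ∈ (pMul J₀ p : Set K) by
      rw [← gen_intMul hunit hxJ, show (B 0 0 : K) * x = -ν + w by rw [hw]; ring, gen_add hwp,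
        gen_neg]
    by_contra hwp
    refine hne ?_
    obtain ⟨z, hz, hz1⟩ : ∃ z ∈ (dualLat J₀ (p * N) : Set K), trChar ((N : K) * w * z) ≠ 1 := by
      by_contra hcon
      push Not at hcon
      have h1 := mem_dual_of_trChar _ hcon
      rw [show dualLat J₀ (p * N) = dualIdeal (pMul J₀ (p * N)) from rfl, dual_dualIdeal,
        mem_pMul] at h1
      refine hwp (mem_pMul.2 ?_)
      have hN0 : (N : K) ≠ 0 := Nat.cast_ne_zero.2 (NeZero.ne N)
      push_cast at h1
      rwa [mul_comm (N : K) w, mul_div_mul_right _ _ hN0] at h1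
    have hfst : ∀ d u : K, (u * (B 1 0 : K) ∈ (dualIdeal J₀ : Set K)) →
        (c * (B 1 1 : K) - (d + u) * (B 1 0 : K) ∈ (dualIdeal J₀ : Set K) ↔
          c * (B 1 1 : K) - d * (B 1 0 : K) ∈ (dualIdeal J₀ : Set K)) := fun d u hu => by
      rw [add_mul, ← sub_sub]
      exact ⟨fun h' => by simpa using add_mem_lat h' hu, fun h' => sub_mem_lat _ h' hu⟩
    have hstep : ∀ d u : K, (u * (B 1 0 : K) ∈ (dualIdeal J₀ : Set K)) →
        g x (d + u) = trChar (u * w) * g x d := fun d u hu => by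
      rw [hg, hg]
      simp only [hfst d u hu]
      split_ifs
      · rw [← trChar_add, ← trChar_add, ← trChar_add]
        congr 1
        rw [hw]
        ring
      · simp
    refine sum_eq_zero_of_translate (J := dualLat J₀ (p * N)) (M := p * N) (g := g x)
      (fun d _ y hy => ?_) (z := (N : K) * z) ?_ (t := trChar ((N : K) * z * w)) ?_ fun d _ => ?_
    · rw [pMul_dualLat] at hy
      rw [hstep d y (int_mul_mem _ hy), trChar_mul_eq_one hy, one_mul]
      rw [hw]
      exact add_mem_lat (lat_zero_mul _ hxJ) hν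
    · simpa using lat_zero_mul (J₀ := dualLat J₀ (p * N)) (N : ℤ) hz
    · rwa [mul_right_comm]
    · exact hstep d _ (hNd z hz)
  have hW : wHat (dualLat J₀ (p * N)) (p * N)
      (fun q => liftW (dualLat J₀ (p * N)) (p * N) (hatSum J₀ (p * N) (stripRes p J₀ res))
        (rowMul B⁻¹ q)) c ν = if Gen p J₀ ν then wHat (dualLat J₀ (p * N)) (p * N)
      (fun q => liftW (dualLat J₀ (p * N)) (p * N) (hatSum J₀ (p * N) res)
        (rowMul B⁻¹ q)) c ν else 0 := by
    rw [hexp, hexp]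
    split_ifs with hgen <;>
      first
        | refine Finset.sum_congr rfl fun x hx => ?_
        | refine Finset.sum_eq_zero fun x hx => ?_
    all_goals
      by_cases hs : ∑ d ∈ residues (dualLat J₀ (p * N)) (p * N), g x d = 0
      · simp [hs]
      · simp [stripRes, hkey x hx hs, hgen]
  rw [hW]
  by_cases hgen : Gen p J₀ ν
  swap
  · rw [if_neg hgen, if_neg fun h' => hgen h'.2]
  rw [if_pos hgen, if_pos ⟨hcJ, hgen⟩, wHat, wHat, hatSum]
  obtain ⟨G, hG⟩ : ∃ G : K → ℂ, ∀ d, G d = liftW (dualLat J₀ N) N (hatSum J₀ N res)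
      (rowMul B⁻¹ (c, d)) * trChar (ν * d) := ⟨_, fun _ => rfl⟩
  have hper := isPer_hat h
  calc _ = ∑ d ∈ residues (dualLat J₀ (p * N)) (p * N),
        (p : ℂ) ^ finrank ℚ K * if d ∈ (dualLat J₀ N : Set K) then G d else 0 := by
        refine Finset.sum_congr rfl fun d hd => ?_
        have hd' := residues_mem _ _ hd
        have hy2 : (rowMul B⁻¹ (c, d)).2 ∈ (dualLat J₀ (p * N) : Set K) := by
          rw [rowMul_inv_snd, neg_add_eq_sub]
          exact sub_mem_lat _ (int_mul_mem _ hd') (int_mul_mem _ hc)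
        have hiff : (rowMul B⁻¹ (c, d)).2 ∈ (dualLat J₀ N : Set K) ↔
            d ∈ (dualLat J₀ N : Set K) := by
          rw [rowMul_inv_snd, neg_add_eq_sub]
          refine ⟨fun h' => mem_of_mul hd' hα ?_, fun h' =>
            sub_mem_lat _ (int_mul_mem _ h') (int_mul_mem _ hcJ)⟩
          have h'' := add_mem_lat h' (int_mul_mem (B 0 1) hcJ)
          rw [sub_add_cancel, mem_dualLat] at h''
          rwa [mul_assoc]
        rw [hG, liftW, liftW, pMul_dualLat, pMul_dualLat, hatSum_level h hy2]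
        simp only [hiff]
        split_ifs <;> ring
    _ = _ := by
        rw [← Finset.mul_sum, sum_residues_sub, hatSum]
        · exact congrArg _ (Finset.sum_congr rfl fun d _ => hG d)
        · intro x hx y hy
          have e := ((FA.KlingenRay.IsPer.lift hper).comp B⁻¹).periodic c hcJ x hx 0
            (zero_mem_ideal _) y (by rwa [pMul_dualLat])
          rw [add_zero] at e
          rw [hG, hG, e, mul_add, trChar_add, mul_comm ν y, trChar_mul_eq_one hy hν, mul_one]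

theorem stripRes_natMul (h : IsPer J₀ N k res) {t t' : ℕ} (htN : t ≡ 1 [MOD N])
    (htp : t * t' ≡ 1 [MOD p]) {x : K} (hx : x ∈ (J₀ : Set K)) :
    stripRes p J₀ res ((t : K) * x) = stripRes p J₀ res x := by
  obtain ⟨z, hz⟩ := Int.modEq_iff_dvd.1 (Int.natCast_modEq_iff.2 htN.symm)
  have hz' := congrArg (Int.cast : ℤ → K) hz
  push_cast at hz'
  have e : res ((t : K) * x) = res x := by
    rw [show (t : K) * x = x + (N : K) * (x * (z : K)) by linear_combination x * hz']
    exact h.periodic x hx _ (mul_mem_pMul J₀ N (int_mul_mem _ hx))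
  have hg : Gen p J₀ ((t : K) * x) ↔ Gen p J₀ x := by
    simpa using gen_intMul (u := (t : ℤ)) (v := (t' : ℤ))
      (by exact_mod_cast (Int.modEq_iff_dvd.1 (Int.natCast_modEq_iff.2 htp.symm))) hx
  simp only [stripRes, hg, e]

/-- **The weight is invariant on `Γ(N) ∩ Γ₀(p)`.** -/
theorem lift_strip_invariant (h : IsPer J₀ N k res) (hBN : B ∈ Gamma N) (hBp : (p : ℤ) ∣ B 1 0)
    {c d : K} (hc : c ∈ (dualLat J₀ (p * N) : Set K)) (hd : d ∈ (dualLat J₀ (p * N) : Set K))
    (hpN : p.Coprime N) :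
    liftW (dualLat J₀ (p * N)) (p * N) (hatSum J₀ (p * N) (stripRes p J₀ res)) (rowMul B⁻¹ (c, d)) =
      liftW (dualLat J₀ (p * N)) (p * N) (hatSum J₀ (p * N) (stripRes p J₀ res)) (c, d) := by
  rw [Gamma_mem] at hBN
  have hN1 : (N : ℤ) ∣ B 1 0 := (ZMod.intCast_zmod_eq_zero_iff_dvd _ _).1 hBN.2.2.1
  obtain ⟨γ₂, hγ⟩ := (Nat.isCoprime_iff_coprime.2 hpN).mul_dvd hBp hN1
  have hdet := FA.Eis.sl_det B
  have hunit : B 0 0 * B 1 1 - 1 = ((p * N : ℕ) : ℤ) * (B 0 1 * γ₂) := by
    rw [hγ] at hdet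
    push_cast
    linarith
  have hfst : ∀ d' ∈ (dualLat J₀ (p * N) : Set K), d' * (B 1 0 : K) ∈ (dualIdeal J₀ : Set K) := by
    intro d' hd'
    rw [mem_dualLat] at hd'
    rw [hγ, show d' * ((((p : ℤ) * N * γ₂ : ℤ)) : K) = ((p * N : ℕ) : K) * d' * (γ₂ : K) by
      push_cast; ring]
    exact int_mul_mem _ hd'
  have hiff : c * (B 1 1 : K) - d * (B 1 0 : K) ∈ (dualIdeal J₀ : Set K) ↔
      c ∈ (dualIdeal J₀ : Set K) := by
    refine ⟨fun h' => ?_, fun h' => sub_mem_lat _ (int_mul_mem _ h') (hfst d hd)⟩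
    have h1 := int_mul_mem (B 0 0) (add_mem_lat h' (hfst d hd))
    rw [sub_add_cancel] at h1
    have e := congrArg (Int.cast : ℤ → K) hunit
    push_cast at e
    rw [mem_dualLat] at hc
    push_cast at hc
    rw [show c = c * (B 1 1 : K) * (B 0 0 : K) -
      (p : K) * N * c * ((B 0 1 * γ₂ : ℤ) : K) by push_cast; linear_combination (-c) * e]
    exact sub_mem_lat _ h1 (int_mul_mem _ hc)
  rw [liftW, liftW, rowMul_inv_fst, rowMul_inv_snd, pMul_dualLat]
  simp only [hiff]
  split_ifs with hcD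
  swap
  · rfl
  have hper : IsPer (dualLat J₀ (p * N)) (p * N) k (hatSum J₀ (p * N) (stripRes p J₀ res)) :=
    isPer_hat (isPer_stripRes h)
  have hmem : d * (B 0 0 : K) ∈ (dualLat J₀ (p * N) : Set K) := int_mul_mem _ hd
  rw [add_comm, hper.periodic _ hmem _ (by
    rw [pMul_dualLat, ← mul_neg, ← Int.cast_neg]
    exact int_mul_mem _ hcD)]
  obtain ⟨M, hM⟩ : ∃ M : ℕ, M = p * N := ⟨_, rfl⟩
  have hMpos : (0 : ℤ) < M := by rw [hM]; exact_mod_cast NeZero.pos (p * N)
  obtain ⟨t, ht⟩ : ∃ t : ℕ, (t : ℤ) = B 0 0 % (M : ℤ) :=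
    ⟨(B 0 0 % (M : ℤ)).toNat, Int.toNat_of_nonneg (Int.emod_nonneg _ hMpos.ne')⟩
  obtain ⟨t', ht'⟩ : ∃ t' : ℕ, (t' : ℤ) = B 1 1 % (M : ℤ) :=
    ⟨(B 1 1 % (M : ℤ)).toNat, Int.toNat_of_nonneg (Int.emod_nonneg _ hMpos.ne')⟩
  have hMd : (M : ℤ) ∣ B 0 0 - t := ht ▸ Int.dvd_self_sub_emod
  have htt : t * t' ≡ 1 [MOD p * N] := by
    rw [← hM, ← Int.natCast_modEq_iff, Nat.cast_mul, ht, ht']
    refine (Int.ModEq.mul (Int.mod_modEq _ _) (Int.mod_modEq _ _)).trans ?_
    exact (Int.modEq_iff_dvd.2 ⟨B 0 1 * γ₂, by push_cast; rw [hunit, hM]⟩).symm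
  have htN : t ≡ 1 [MOD N] := by
    rw [← Int.natCast_modEq_iff, Nat.cast_one]
    have h1 : (N : ℤ) ∣ B 0 0 - 1 := (ZMod.intCast_zmod_eq_zero_iff_dvd _ _).1 (by simp [hBN.1])
    have h2 : (N : ℤ) ∣ B 0 0 - t :=
      dvd_trans (Dvd.intro_left (p : ℤ) (by rw [hM]; push_cast; rfl)) hMd
    exact (Int.modEq_iff_dvd.2 (by simpa using dvd_sub h1 h2)).symm
  calc hatSum J₀ (p * N) (stripRes p J₀ res) (d * (B 0 0 : K))
      = ∑ x ∈ residues J₀ (p * N), stripRes p J₀ res ((t : K) * x) *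
          trChar (d * ((t : K) * x)) := by
        refine Finset.sum_congr rfl fun x hx => ?_
        have hxJ := residues_mem J₀ _ hx
        obtain ⟨z, hz⟩ := hMd
        have hz' := congrArg (Int.cast : ℤ → K) hz
        rw [hM] at hz'
        push_cast at hz'
        rw [stripRes_natMul h htN (htt.of_mul_right N) hxJ,
          show d * (B 0 0 : K) * x = d * ((t : K) * x) + d * (((p * N : ℕ) : K) * x) * (z : K) by
            push_cast; linear_combination (d * x) * hz',
          trChar_add, trChar_int_mul (trChar_mul_eq_one hd (mul_mem_pMul J₀ (p * N) hxJ)), mul_one]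
    _ = _ := sum_residues_mul J₀ (p * N)
        (fun x => stripRes p J₀ res x * trChar (d * x)) (fun x hx y hy => by
          rw [(isPer_stripRes h).periodic x hx y hy, mul_add, trChar_add, trChar_mul_eq_one hd hy,
            mul_one]) htt

end FA.RayPadicL

end
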