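import Fermat.Agent.WeightLevel.Criterion
import Fermat.Agent.WeightLevel.CongruentOne
import Fermat.Agent.Eisenstein.LevelP

/-!
# Constant terms from level `p N` to level `N`

A form of weight `w` on `Γ(N) ∩ Γ₀(p)` times a power of the form `E - p ^ (p-1) E(p ·)`, traced to
`Γ(N)`, keeps modulo a high power of `p` its expansions at the cusps over infinity and loses those
over zero. So if these agree off the constant with a form of higher weight on `Γ(N)`, they agree at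
the constant too.
-/

set_option autoImplicit false
set_option linter.unusedSectionVars false
set_option linter.style.haveILetI false

noncomputable section

open UpperHalfPlane hiding I
open scoped MatrixGroups Manifold ModularForm Classical

namespace FA.RayPadicL

open CongruenceSubgroup (Gamma Gamma0 Gamma_normal)
open FA.Eis (HasQ IsLv Vp dil fdivPt scalePt BddAllCusps mem_Gamma0_iff_dvd)
open FA.KlingenRay (IsMF conjFun)
open FA.KlingenIntegral (val_natCast_le val_root)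
open PowerSeries (coeff)

variable {O : ValuationSubring ℂ} {p N : ℕ}

theorem hasQ_cast {a b : ℕ} (e : a = b) {g : ℍ → ℂ} {A : PowerSeries ℂ} (h : HasQ (a : ℝ) g A) :
    HasQ (b : ℝ) g A := e ▸ h

/-- A series over the ring divisible by a power of `p` is small. -/
theorem val_coeff_of_dvd {Y : PowerSeries O} {a : ℕ} (h : (p : PowerSeries O) ^ a ∣ Y) (m : ℕ) :
    O.valuation (coeff m (Y.map O.subtype)) ≤ O.valuation (p : ℂ) ^ a := by
  obtain ⟨R, rfl⟩ := h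
  rw [PowerSeries.coeff_map, ← map_natCast PowerSeries.C, ← map_pow, PowerSeries.coeff_C_mul,
    map_mul, map_mul, map_pow, map_pow, map_natCast]
  exact mul_le_of_le_one_right' (O.valuation_le_one _)

variable [NeZero N]

/-- **The auxiliary form of level `p`.** -/
theorem exists_twist (hp : p.Prime) (hℓ : O.valuation (p : ℂ) < 1) (h5 : 5 ≤ p) (r t : ℕ) :
    ∃ (g : ℍ → ℂ) (U : SL(2, ℤ) → PowerSeries ℂ),
      (∀ γ ∈ Gamma0 p, g ∣[(((p - 1) * (p ^ r * t) : ℕ) : ℤ)] γ = g) ∧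
      (∀ B, HasQ ((p * N : ℕ) : ℝ) (g ∣[(((p - 1) * (p ^ r * t) : ℕ) : ℤ)] B) (U B)) ∧
      (∀ B : SL(2, ℤ), (p : ℤ) ∣ B 1 0 → ∀ m,
        O.valuation (coeff m (U B - 1)) ≤ O.valuation (p : ℂ) ^ (r + 1)) ∧
      ∀ B : SL(2, ℤ), ¬(p : ℤ) ∣ B 1 0 → ∀ m,
        O.valuation (coeff m (U B)) ≤ O.valuation (p : ℂ) ^ (p ^ r * t) := by
  have := Fact.mk hp
  have hk : 3 ≤ p - 1 := by omega
  have hpz : (p : ℂ) ≠ 0 := Nat.cast_ne_zero.2 hp.ne_zero
  obtain ⟨E, -, hE1, hEq⟩ := FA.WeightLevel.exists_series_one (O := O) hp hℓ h5 hk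
  obtain ⟨w, hw⟩ : ∃ w : ℤ, w = ((p - 1 : ℕ) : ℤ) := ⟨_, rfl⟩
  have hE : IsLv 1 w ⇑(ModularForm.E hk) := by
    rw [hw]
    exact IsLv.of_modularForm _
  obtain ⟨e, he⟩ : ∃ e : ℍ → ℂ,
      e = ⇑(ModularForm.E hk) - ((p : ℂ) ^ (p - 1)) • dil p ⇑(ModularForm.E hk) := ⟨_, rfl⟩
  have hinv : ∀ γ ∈ Gamma0 p, e ∣[w] γ = e :=
    he ▸ ((hE.of_levelOne p).sub ((hE.dil p).smul _)).inv
  obtain ⟨X, hX⟩ : ∃ X : PowerSeries O,
      X = E - PowerSeries.C ((p : O) ^ (p - 1)) * Vp p E := ⟨_, rfl⟩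
  have hX1 : (p : PowerSeries O) ∣ X - 1 := by
    rw [hX, sub_right_comm]
    refine dvd_sub hE1 (Dvd.dvd.mul_right ?_ _)
    rw [map_pow, map_natCast]
    exact dvd_pow_self _ (by omega)
  have hXq : HasQ 1 e (X.map O.subtype) := by
    rw [he, hX, map_sub, map_mul, PowerSeries.map_C, Vp, PowerSeries.map_expand,
      ← PowerSeries.smul_eq_C_mul, map_pow O.subtype, map_natCast O.subtype]
    exact hEq.sub ((hEq.dil p).smul _)
  have hM : p * N ≠ 0 := mul_ne_zero hp.ne_zero (NeZero.ne N)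
  have hser : ∀ B : SL(2, ℤ), ∃ Y : PowerSeries O,
      HasQ ((p * N : ℕ) : ℝ) (e ∣[w] B) (Y.map O.subtype) ∧
      ((p : ℤ) ∣ B 1 0 → (p : PowerSeries O) ∣ Y - 1) ∧
      (¬(p : ℤ) ∣ B 1 0 → (p : PowerSeries O) ∣ Y) := fun B => by
    by_cases hB : (p : ℤ) ∣ B 1 0
    · refine ⟨PowerSeries.expand (p * N) hM X, ?_, fun _ => ?_, fun h => absurd hB h⟩
      · rw [hinv B (mem_Gamma0_iff_dvd.2 hB), PowerSeries.map_expand]
        exact FA.KlingenIntegral.hasQ_expand hM hXq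
      · simpa using map_dvd (PowerSeries.expand (p * N) hM (R := O)) hX1
    obtain ⟨j, -, hj⟩ := FA.Eis.exists_coset B hB
    obtain ⟨ζ, hζ⟩ : ∃ ζ : O, (ζ : ℂ) = Complex.exp (2 * Real.pi * Complex.I / p) ^ j := by
      refine ⟨⟨_, (O.valuation_le_one_iff _).1 (val_root hp.ne_zero ?_).le⟩, rfl⟩
      have h1 : Complex.exp (2 * Real.pi * Complex.I / p) ^ p = 1 := by
        rw [← Complex.exp_nat_mul,
          show (p : ℂ) * (2 * Real.pi * Complex.I / p) = 2 * Real.pi * Complex.I by field_simp,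
          Complex.exp_two_pi_mul_I]
      exact (pow_right_comm _ j p).trans (by rw [h1, one_pow])
    refine ⟨PowerSeries.expand N (NeZero.ne N) (Vp p E - PowerSeries.rescale ζ E), ?_,
      fun h => absurd h hB, fun _ => ?_⟩
    · rw [FA.Eis.slash_eq_of_coset hinv hj, SlashAction.slash_mul, PowerSeries.map_expand]
      refine hasQ_cast (mul_comm N p) (FA.WeightLevel.hasQ_expand_mul (N := p) (NeZero.ne N) ?_)
      have h1 := (hEq.changePeriod p).sub (hEq.fdiv p j)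
      rw [map_sub, Vp, PowerSeries.map_expand, ← PowerSeries.rescale_map]
      convert h1 using 1
      · funext τ
        rw [FA.Eis.slash_S_eq_W p w e j τ, he, FA.Eis.W_sub, FA.Eis.W_smul, FA.Eis.W_dil hE,
          FA.Eis.W, hE.inv', hw, zpow_neg, zpow_natCast, smul_smul,
          mul_inv_cancel₀ (pow_ne_zero _ hpz), one_smul]
        simp only [Pi.sub_apply, dil]
        congr 1
        rw [← hEq.vadd_int (j : ℤ) τ]
        refine congrArg _ (UpperHalfPlane.ext ?_)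
        rw [FA.Eis.scalePt_fdivPt]
        simp [add_comm]
      · rw [show O.subtype ζ = (ζ : ℂ) from rfl, hζ]
    · have h0 : (p : PowerSeries O) ∣ Vp p E - PowerSeries.rescale ζ E := by
        rw [show Vp p E - PowerSeries.rescale ζ E =
          (Vp p E - 1) - (PowerSeries.rescale ζ E - 1) by ring]
        refine dvd_sub ?_ ?_
        · simpa using map_dvd (Vp p (R := O)) hE1
        · simpa using map_dvd (PowerSeries.rescale ζ) hE1
      have h1 := map_dvd (PowerSeries.expand N (NeZero.ne N) (R := O)) h0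
      rwa [map_natCast] at h1
  choose Y hYq hY1 hY0 using hser
  obtain ⟨q, hq⟩ : ∃ q, q = p ^ r * t := ⟨_, rfl⟩
  rw [← hq]
  have hsl : ∀ B : SL(2, ℤ), (fun τ => e τ ^ q) ∣[(((p - 1) * q : ℕ) : ℤ)] B =
      fun τ => (e ∣[w] B) τ ^ q := fun B => by
    funext τ
    rw [FA.Eis.slash_sl_apply, FA.Eis.slash_sl_apply, hw, mul_pow, zpow_neg, zpow_neg,
      zpow_natCast, zpow_natCast, inv_pow, ← pow_mul]
  refine ⟨fun τ => e τ ^ q, fun B => (Y B ^ q).map O.subtype, fun γ hγ => ?_, fun B => ?_,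
    fun B hB m => ?_, fun B hB m => val_coeff_of_dvd (pow_dvd_pow_of_dvd (hY0 B hB) q) m⟩
  · rw [hsl, hinv γ hγ]
  · rw [hsl]
    simp only [map_pow]
    exact (hYq B).pow (Nat.cast_pos.2 (Nat.pos_of_ne_zero hM)) q
  · rw [← map_one (PowerSeries.map O.subtype), ← map_sub]
    refine val_coeff_of_dvd ?_ m
    have h2 := (dvd_sub_pow_of_dvd_sub (hY1 B hB) r).trans (sub_dvd_pow_sub_pow _ _ t)
    rwa [one_pow, one_pow, ← pow_mul, ← hq] at h2

/-- A product with a series close to a scalar. -/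
theorem val_coeff_mul {T U : PowerSeries ℂ} {u v : O.ValueGroup}
    (hT : ∀ i, O.valuation (coeff i T) ≤ u) (hU : ∀ i, O.valuation (coeff i U) ≤ v) (m : ℕ) :
    O.valuation (coeff m (T * U)) ≤ u * v := by
  rw [PowerSeries.coeff_mul]
  exact Valuation.map_sum_le _ fun x _ => by
    rw [map_mul]
    exact mul_le_mul' (hT _) (hU _)

/-- A lift to `Γ₀(p)` modulo `Γ(N)`. -/
theorem exists_lift (hp : p.Prime) (hN : ¬p ∣ N) (A : SL(2, ℤ)) :
    ∃ γ ∈ Gamma N, (p : ℤ) ∣ (γ * A) 1 0 := by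
  have hN' : ¬(p : ℤ) ∣ (N : ℤ) := fun h => hN (Int.natCast_dvd_natCast.1 h)
  have hpi : Prime (p : ℤ) := Nat.prime_iff_prime_int.1 hp
  have key : ∀ A : SL(2, ℤ), ¬(p : ℤ) ∣ A 0 0 → ∃ γ ∈ Gamma N, (p : ℤ) ∣ (γ * A) 1 0 := fun A hA => by
    obtain ⟨u, v, huv⟩ := hpi.coprime_iff_not_dvd.2 fun h => (hpi.dvd_mul.1 h).elim hN' hA
    refine ⟨FA.Eis.sl2 1 0 ((N : ℤ) * (-(A 1 0) * v)) 1 (by ring), ?_, A 1 0 * u, ?_⟩
    · rw [CongruenceSubgroup.Gamma_mem]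
      simp
    · rw [Matrix.SpecialLinearGroup.coe_mul]
      simp [Matrix.mul_apply, Fin.sum_univ_two]
      linear_combination (-(A 1 0)) * huv
  by_cases hA : (p : ℤ) ∣ A 0 0
  swap
  · exact key A hA
  obtain ⟨γ₀, hγ₀⟩ : ∃ γ₀, γ₀ = FA.Eis.sl2 1 (N : ℤ) 0 1 (by ring) := ⟨_, rfl⟩
  obtain ⟨γ, hγ, hd⟩ := key (γ₀ * A) fun h => by
    have e : (γ₀ * A) 0 0 = A 0 0 + (N : ℤ) * A 1 0 := by
      rw [hγ₀, Matrix.SpecialLinearGroup.coe_mul]
      simp [Matrix.mul_apply, Fin.sum_univ_two]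
    rw [e, dvd_add_right hA] at h
    rcases hpi.dvd_mul.1 h with h' | h'
    · exact hN' h'
    · exact hpi.not_dvd_one (FA.Eis.sl_det A ▸ dvd_sub (hA.mul_right _) (h'.mul_left _))
  refine ⟨γ * γ₀, mul_mem hγ ?_, by rwa [mul_assoc]⟩
  rw [hγ₀, CongruenceSubgroup.Gamma_mem]
  simp

variable {w : ℕ}

/-- **The constants agree.** -/
theorem constant_trace (hp : p.Prime) (hℓ : O.valuation (p : ℂ) < 1) (h5 : 5 ≤ p) (hN : ¬p ∣ N)
    {a r t : ℕ} (har : a + 1 ≤ r) (ht : 1 ≤ t) {W : ℕ} (hW : W = w + (p - 1) * (p ^ r * t))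
    (hadm : ¬(p - 1) ∣ 2 * W ∨ (Even W ∧ ¬(p - 1) ∣ W))
    {f f' : ℍ → ℂ} (hf : ∀ γ ∈ Gamma N, (p : ℤ) ∣ γ 1 0 → f ∣[(w : ℤ)] γ = f)
    (T : SL(2, ℤ) → PowerSeries ℂ) (hT : ∀ B, HasQ ((p * N : ℕ) : ℝ) (f ∣[(w : ℤ)] B) (T B))
    (hf' : IsMF (Gamma N) W f') (S : SL(2, ℤ) → PowerSeries ℂ)
    (hS : ∀ A, HasQ (N : ℝ) (f' ∣[(W : ℤ)] A) (S A))
    (hS1 : ∀ A m, O.valuation (coeff m (S A)) ≤ 1)
    (hT1 : ∀ B : SL(2, ℤ), (p : ℤ) ∣ B 1 0 → ∀ m, m ≠ 0 → O.valuation (coeff m (T B)) ≤ 1)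
    (hT0 : ∀ B : SL(2, ℤ), ¬(p : ℤ) ∣ B 1 0 → ∀ m,
      O.valuation (coeff m (T B)) * O.valuation (p : ℂ) ^ r ≤ O.valuation (p : ℂ) ^ (a + 1))
    (hcong : ∀ A B : SL(2, ℤ), (p : ℤ) ∣ B 1 0 → A * B⁻¹ ∈ Gamma N → ∀ m, m ≠ 0 →
      O.valuation (coeff m (S A) - coeff (p * m) (T B)) ≤ O.valuation (p : ℂ) ^ (a + 1)) :
    O.valuation (coeff 0 (S 1) - coeff 0 (T 1)) ≤ O.valuation (p : ℂ) ^ (a + 1) := by
  have := Fact.mk hp
  obtain ⟨g, U, hg, hU, hU1, hU0⟩ := exists_twist (N := N) hp hℓ h5 r t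
  have hM0 : (0 : ℝ) < ((p * N : ℕ) : ℝ) :=
    Nat.cast_pos.2 (Nat.mul_pos hp.pos (NeZero.pos N))
  have hN0 : (0 : ℝ) < (N : ℝ) := Nat.cast_pos.2 (NeZero.pos N)
  obtain ⟨H, hH⟩ : ∃ H : Subgroup SL(2, ℤ), H = Gamma N ⊓ Gamma0 p := ⟨_, rfl⟩
  have hHmem : ∀ γ, γ ∈ H ↔ γ ∈ Gamma N ∧ (p : ℤ) ∣ γ 1 0 := fun γ => by
    rw [hH, Subgroup.mem_inf, mem_Gamma0_iff_dvd]
  have : H.FiniteIndex := by rw [hH]; infer_instance
  obtain ⟨F, hF⟩ : ∃ F : ℍ → ℂ, F = f * g := ⟨_, rfl⟩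
  have hWZ : (W : ℤ) = (w : ℤ) + (((p - 1) * (p ^ r * t) : ℕ) : ℤ) := by rw [hW]; push_cast; rfl
  have hFq : ∀ B, HasQ ((p * N : ℕ) : ℝ) (F ∣[(W : ℤ)] B) (T B * U B) := fun B => by
    rw [hF, hWZ, ModularForm.mul_slash_SL2]
    exact (hT B).mul hM0 (hU B)
  have hFmf : IsMF H W F := by
    refine ⟨fun γ hγ => ?_, ?_, fun B => (hFq B).bdd hM0⟩
    · obtain ⟨h1, h2⟩ := (hHmem γ).1 hγ
      rw [hF, hWZ, ModularForm.mul_slash_SL2, hf γ h1 h2, hg γ (mem_Gamma0_iff_dvd.2 h2)]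
    · have h1 := hFq 1
      rw [SlashAction.slash_one] at h1
      exact h1.mdiff hM0
  -- the trace
  let _ : Fintype (SL(2, ℤ) ⧸ H) := Fintype.ofFinite _
  have hHN : H ≤ Gamma N := fun γ h => ((hHmem γ).1 h).1
  have hmem : ∀ x : SL(2, ℤ), Quotient.out (QuotientGroup.mk x : SL(2, ℤ) ⧸ H) ∈ Gamma N ↔
      x ∈ Gamma N := fun x => by
    obtain ⟨⟨y, hy⟩, e⟩ := QuotientGroup.mk_out_eq_mul H x
    rw [e]
    exact Subgroup.mul_mem_cancel_right _ (hHN hy)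
  obtain ⟨P, hP⟩ : ∃ P : Finset (SL(2, ℤ) ⧸ H),
      P = Finset.univ.filter fun i => Quotient.out i ∈ Gamma N := ⟨_, rfl⟩
  obtain ⟨h, hh⟩ : ∃ h : ℍ → ℂ, h = f' - ∑ i ∈ P, conjFun H W F i := ⟨_, rfl⟩
  have hser : ∀ A, HasQ ((p * N : ℕ) : ℝ) (h ∣[(W : ℤ)] A) (PowerSeries.expand p hp.ne_zero (S A) -
      ∑ i ∈ P, T ((Quotient.out i)⁻¹ * A) * U ((Quotient.out i)⁻¹ * A)) := fun A => by
    rw [hh, sub_eq_add_neg, SlashAction.add_slash, SlashAction.neg_slash, ← sub_eq_add_neg,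
      SlashAction.sum_slash]
    refine (FA.WeightLevel.hasQ_expand_mul hp.ne_zero (hS A)).sub (HasQ.sum _ fun i _ => ?_)
    rw [conjFun, ← SlashAction.slash_mul]
    exact hFq _
  have hinv : ∀ γ ∈ Gamma N, h ∣[(W : ℤ)] γ = h := fun γ hγ => by
    rw [hh, sub_eq_add_neg, SlashAction.add_slash, SlashAction.neg_slash, ← sub_eq_add_neg,
      ← sub_eq_add_neg, hf'.inv γ hγ, SlashAction.sum_slash]
    congr 1
    refine Finset.sum_equiv (MulAction.toPerm γ⁻¹) (fun i => ?_) fun i _ => hFmf.slash_conjFun i γ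
    induction i using QuotientGroup.induction_on with
    | H x =>
      simp only [hP, Finset.mem_filter, Finset.mem_univ, true_and, MulAction.toPerm_apply,
        MulAction.Quotient.smul_mk, hmem, smul_eq_mul]
      exact (Subgroup.mul_mem_cancel_left _ ((Gamma N).inv_mem hγ)).symm
  have hhol : MDiff h := by
    have h1 := hser 1
    rw [SlashAction.slash_one] at h1
    exact h1.mdiff hM0
  have hmf : IsMF (Gamma N) W h := ⟨hinv, hhol, fun A => (hser A).bdd hM0⟩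
  obtain ⟨Z, hZ⟩ : ∃ Z : SL(2, ℤ) → PowerSeries ℂ, ∀ A, HasQ (N : ℝ) (h ∣[(W : ℤ)] A) (Z A) := by
    refine ⟨_, fun A => HasQ.of_periodic hN0 ?_ (hhol.slash (W : ℤ) _) (hmf.bdd A)⟩
    have hT' : (h ∣[(W : ℤ)] A) ∣[(W : ℤ)] (ModularGroup.T ^ (N : ℤ) : SL(2, ℤ)) =
        h ∣[(W : ℤ)] A := by
      have hc : A * ModularGroup.T ^ (N : ℤ) * A⁻¹ ∈ Gamma N := (Gamma_normal N).conj_mem _ (by
        rw [CongruenceSubgroup.Gamma_mem, ModularGroup.coe_T_zpow]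
        simp) A
      rw [← SlashAction.slash_mul, show A * ModularGroup.T ^ (N : ℤ) =
        A * ModularGroup.T ^ (N : ℤ) * A⁻¹ * A by group, SlashAction.slash_mul, hinv _ hc]
    intro z
    by_cases hz : 0 < z.im
    · have hz' : 0 < (z + ((N : ℝ) : ℂ)).im := by simpa using hz
      simp only [Function.comp_apply, ofComplex_apply_of_im_pos hz', ofComplex_apply_of_im_pos hz]
      rw [← congrFun hT' ⟨z, hz⟩, FA.Eis.slash_T_zpow_apply]
      refine congrArg _ (UpperHalfPlane.ext ?_)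
      simp [add_comm]
    · have hz' : (z + ((N : ℝ) : ℂ)).im ≤ 0 := by simpa using not_lt.1 hz
      simp only [Function.comp_apply, ofComplex_apply_of_im_nonpos hz',
        ofComplex_apply_of_im_nonpos (not_lt.1 hz)]
  have hZe : ∀ A m, coeff m (Z A) = coeff m (S A) -
      ∑ i ∈ P, coeff (p * m) (T ((Quotient.out i)⁻¹ * A) * U ((Quotient.out i)⁻¹ * A)) :=
    fun A m => by
    have e := congrArg (coeff (p * m))
      ((FA.WeightLevel.hasQ_expand_mul hp.ne_zero (hZ A)).unique hM0 (hser A))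
    rw [map_sub, map_sum, PowerSeries.coeff_expand_mul, PowerSeries.coeff_expand_mul] at e
    exact e
  -- the series depend on the cosets
  have hTeq : ∀ B B' : SL(2, ℤ), B * B'⁻¹ ∈ H → T B = T B' := fun B B' hBB => by
    obtain ⟨h1, h2⟩ := (hHmem _).1 hBB
    refine (hT B).unique hM0 ?_
    have := hT B'
    rw [← hf _ h1 h2, ← SlashAction.slash_mul, inv_mul_cancel_right] at this
    exact this
  obtain ⟨V, hV1, hVle, hVat⟩ : ∃ V : O.ValueGroup, 1 ≤ V ∧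
      (∀ B : SL(2, ℤ), (p : ℤ) ∣ B 1 0 → O.valuation (coeff 0 (T B)) ≤ V) ∧
      (1 < V → ∃ B : SL(2, ℤ), (p : ℤ) ∣ B 1 0 ∧ V = O.valuation (coeff 0 (T B))) := by
    obtain ⟨φ, hφ⟩ : ∃ φ : SL(2, ℤ) ⧸ H → O.ValueGroup, ∀ i, φ i =
        if (p : ℤ) ∣ (Quotient.out i)⁻¹ 1 0 then
          max 1 (O.valuation (coeff 0 (T (Quotient.out i)⁻¹))) else 1 := ⟨_, fun _ => rfl⟩
    have : Nonempty (SL(2, ℤ) ⧸ H) := ⟨QuotientGroup.mk 1⟩
    obtain ⟨i₀, hi₀⟩ := Finite.exists_max φ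
    refine ⟨φ i₀, ?_, fun B hB => ?_, fun h1 => ?_⟩
    · rw [hφ]
      split_ifs
      exacts [le_max_left _ _, le_rfl]
    · obtain ⟨⟨y, hy⟩, e⟩ := QuotientGroup.mk_out_eq_mul H B⁻¹
      have hy' : B * (Quotient.out (QuotientGroup.mk B⁻¹ : SL(2, ℤ) ⧸ H))⁻¹⁻¹ ∈ H := by
        rw [e, inv_inv, mul_inv_cancel_left]
        exact hy
      have hd : (p : ℤ) ∣ (Quotient.out (QuotientGroup.mk B⁻¹ : SL(2, ℤ) ⧸ H))⁻¹ 1 0 := by
        rw [← mem_Gamma0_iff_dvd] at hB ⊢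
        rw [e, mul_inv_rev, inv_inv]
        exact mul_mem ((Gamma0 p).inv_mem (mem_Gamma0_iff_dvd.2 ((hHmem y).1 hy).2)) hB
      rw [hTeq B _ hy']
      refine le_trans ?_ (hi₀ (QuotientGroup.mk B⁻¹))
      rw [hφ, if_pos hd]
      exact le_max_right _ _
    · rw [hφ] at h1 ⊢
      split_ifs with hd
      · rw [if_pos hd] at h1
        refine ⟨_, hd, max_eq_right ?_⟩
        rcases lt_max_iff.1 h1 with h | h
        exacts [absurd h (lt_irrefl _), h.le]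
      · rw [if_neg hd] at h1
        exact absurd h1 (lt_irrefl _)
  -- the distinguished term
  obtain ⟨δ, hδ⟩ : ∃ δ : O.ValueGroup, δ = O.valuation (p : ℂ) ^ (a + 1) := ⟨_, rfl⟩
  obtain ⟨ε, hε⟩ : ∃ ε : O.ValueGroup, ε = V * O.valuation (p : ℂ) ^ (r + 1) := ⟨_, rfl⟩
  have hTall : ∀ B : SL(2, ℤ), (p : ℤ) ∣ B 1 0 → ∀ m, O.valuation (coeff m (T B)) ≤ V :=
    fun B hB m => by
      rcases eq_or_ne m 0 with rfl | hm
      exacts [hVle B hB, (hT1 B hB m hm).trans hV1]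
  have hmain : ∀ A, ∃ B : SL(2, ℤ), (p : ℤ) ∣ B 1 0 ∧ A * B⁻¹ ∈ Gamma N ∧ ∀ m,
      O.valuation (coeff m (Z A) - (coeff m (S A) - coeff (p * m) (T B))) ≤ max δ ε := fun A => by
    obtain ⟨γ, hγ, hγA⟩ := exists_lift hp hN A
    obtain ⟨i, hi⟩ : ∃ i : SL(2, ℤ) ⧸ H, i = QuotientGroup.mk γ⁻¹ := ⟨_, rfl⟩
    obtain ⟨⟨y, hy⟩, e⟩ := QuotientGroup.mk_out_eq_mul H γ⁻¹
    rw [← hi] at e
    have hiP : i ∈ P := by
      rw [hP, Finset.mem_filter, hi, hmem]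
      exact ⟨Finset.mem_univ _, (Gamma N).inv_mem hγ⟩
    obtain ⟨B, hB⟩ : ∃ B, B = (Quotient.out i)⁻¹ * A := ⟨_, rfl⟩
    have hB0 : (p : ℤ) ∣ B 1 0 := by
      rw [← mem_Gamma0_iff_dvd, hB, e, mul_inv_rev, inv_inv, mul_assoc]
      exact mul_mem ((Gamma0 p).inv_mem (mem_Gamma0_iff_dvd.2 ((hHmem y).1 hy).2))
        (mem_Gamma0_iff_dvd.2 hγA)
    refine ⟨B, hB0, ?_, fun m => ?_⟩
    · rw [hB, mul_inv_rev, inv_inv, mul_inv_cancel_left]
      have := hiP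
      rw [hP, Finset.mem_filter] at this
      exact this.2
    have hrest : ∀ j ∈ P, j ≠ i → O.valuation (coeff (p * m)
        (T ((Quotient.out j)⁻¹ * A) * U ((Quotient.out j)⁻¹ * A))) ≤ δ := fun j hj hji => by
      have hj0 : ¬(p : ℤ) ∣ ((Quotient.out j)⁻¹ * A) 1 0 := fun hd => hji ?_
      · rw [PowerSeries.coeff_mul]
        refine Valuation.map_sum_le _ fun x _ => ?_
        rw [map_mul, hδ]
        refine le_trans ?_ (hT0 _ hj0 x.1)
        refine mul_le_mul_right ((hU0 _ hj0 x.2).trans (pow_le_pow_right_of_le_one' hℓ.le ?_)) _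
        exact (Nat.lt_pow_self hp.one_lt).le.trans (Nat.le_mul_of_pos_right _ ht)
      · rw [← QuotientGroup.out_eq' j, ← QuotientGroup.out_eq' i, QuotientGroup.eq, hHmem]
        rw [hP, Finset.mem_filter] at hj hiP
        refine ⟨mul_mem ((Gamma N).inv_mem hj.2) hiP.2, ?_⟩
        rw [← mem_Gamma0_iff_dvd] at hd hB0 ⊢
        rw [show (Quotient.out j)⁻¹ * Quotient.out i =
          (Quotient.out j)⁻¹ * A * ((Quotient.out i)⁻¹ * A)⁻¹ by group, ← hB]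
        exact mul_mem hd ((Gamma0 p).inv_mem hB0)
    rw [hZe, ← Finset.add_sum_erase P _ hiP, ← hB,
      show coeff m (S A) - (coeff (p * m) (T B * U B) + ∑ j ∈ P.erase i, coeff (p * m)
        (T ((Quotient.out j)⁻¹ * A) * U ((Quotient.out j)⁻¹ * A))) -
        (coeff m (S A) - coeff (p * m) (T B)) = -(coeff (p * m) (T B * (U B - 1)) +
          ∑ j ∈ P.erase i, coeff (p * m) (T ((Quotient.out j)⁻¹ * A) * U ((Quotient.out j)⁻¹ * A)))
        by rw [mul_sub, mul_one, map_sub]; ring, Valuation.map_neg]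
    refine O.valuation.map_add_le ((val_coeff_mul (hTall B hB0) (hU1 B hB0) _).trans
      (hε ▸ le_max_right _ _)) (Valuation.map_sum_le _ fun j hj => ?_)
    exact (hrest j (Finset.mem_of_mem_erase hj) (Finset.ne_of_mem_erase hj)).trans (le_max_left _ _)
  have hconst : ∀ A, O.valuation (coeff 0 (Z A)) ≤ max δ ε := fun A =>
    FA.WeightLevel.constant_le_level hp hℓ h5 hN hadm le_rfl hmf Z hZ (fun A' m hm => by
      obtain ⟨B, hB0, hBA, hle⟩ := hmain A'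
      rw [← sub_add_cancel (coeff m (Z A')) (coeff m (S A') - coeff (p * m) (T B))]
      exact O.valuation.map_add_le (hle m)
        ((hδ ▸ hcong A' B hB0 hBA m hm).trans (le_max_left _ _))) A
  have hres : ∀ A B₀ : SL(2, ℤ), (p : ℤ) ∣ B₀ 1 0 → A * B₀⁻¹ ∈ Gamma N →
      O.valuation (coeff 0 (S A) - coeff 0 (T B₀)) ≤ max δ ε := fun A B₀ hB₀ hA => by
    obtain ⟨B, hB0, hBA, hle⟩ := hmain A
    have e : T B₀ = T B := hTeq _ _ ((hHmem _).2 ⟨by
      rw [show B₀ * B⁻¹ = (A * B₀⁻¹)⁻¹ * (A * B⁻¹) by group]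
      exact mul_mem ((Gamma N).inv_mem hA) hBA, by
      rw [← mem_Gamma0_iff_dvd] at hB₀ hB0 ⊢
      exact mul_mem hB₀ ((Gamma0 p).inv_mem hB0)⟩)
    have := hle 0
    rw [mul_zero] at this
    rw [e, ← sub_sub_cancel (coeff 0 (Z A)) (coeff 0 (S A) - coeff 0 (T B))]
    exact O.valuation.map_sub_le (hconst A) this
  have hV : V = 1 := by
    by_contra hne
    have h1 : 1 < V := lt_of_le_of_ne hV1 (Ne.symm hne)
    obtain ⟨B, hB, hBV⟩ := hVat h1
    have hlt : max 1 (max δ ε) < V := by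
      refine max_lt h1 (max_lt ?_ ?_)
      · exact lt_of_le_of_lt (hδ ▸ pow_le_one₀ zero_le hℓ.le) h1
      · rw [hε]
        exact mul_lt_of_lt_one_right (zero_lt_one.trans h1) (pow_lt_one₀ zero_le hℓ (by omega))
    refine hlt.not_ge ?_
    rw [hBV, ← sub_sub_cancel (coeff 0 (S B)) (coeff 0 (T B))]
    exact O.valuation.map_sub_le ((hS1 B 0).trans (le_max_left _ _))
      ((hres B B hB (by rw [mul_inv_cancel]; exact one_mem _)).trans (le_max_right _ _))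
  have h1 := hres 1 1 (by simp) (by rw [inv_one, mul_one]; exact one_mem _)
  refine h1.trans (max_le hδ.le ?_)
  rw [hε, hV, one_mul]
  exact pow_le_pow_right_of_le_one' hℓ.le (by omega)

end FA.RayPadicL

end
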