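import Fermat.Agent.RayPadicL.Coeff
import Fermat.Agent.RayPadicL.Trace
import Fermat.Agent.WeightLevel.Kummer

/-!
# The value of high weight and the stripped value

The Eisenstein series of the stripped transform at level `p N`, traced to level `N`, agrees off the
constant with that of weight `k + (p - 1) p ^ r` modulo `p ^ (a + 1)` at every cusp. So the
normalised values agree to this modulus.
-/

set_option autoImplicit false
set_option linter.unusedSectionVars false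
set_option linter.style.haveILetI false

noncomputable section

open NumberField InfinitePlace Module Filter
open UpperHalfPlane hiding I
open scoped Real nonZeroDivisors Classical MatrixGroups Manifold ModularForm

namespace FA.RayPadicL

open FA.HeckeFE FA.SiegelKlingen FA.KlingenRay FA.KlingenIntegral
open FA.Eis (HasQ)
open FA.ClassIntegral (dualLat)
open FA.KlingenZero (DualPair wHat)
open FA.PadicEulerFactor (pMul mem_pMul add_mem_lat int_mul_mem)
open CongruenceSubgroup (Gamma Gamma1)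

variable {K : Type*} [Field K] [NumberField K] [IsTotallyReal K]

/-- A form with the series and the constants of the transforms at all cusps. -/
def CuspData (J : (FractionalIdeal (𝓞 K)⁰ K)ˣ) (N : ℕ) [NeZero N] (k : ℕ) (Φ : K → ℂ) : Prop :=
  ∃ F : ℍ → ℂ, (∀ g ∈ Gamma1 N, F ∣[((k * finrank ℚ K : ℕ) : ℤ)] g = F) ∧
    ∀ (A : SL(2, ℤ)) (τ : ℍ), HasSum (fun q : DualPair J N =>
      cuspTerm J N k (fun x => liftW J N Φ (rowMul A⁻¹ x)) q * expTerm (τ : ℂ) q.1.1 q.2)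
        ((factor (pMul J N) k)⁻¹ * ((F ∣[((k * finrank ℚ K : ℕ) : ℤ)] A) τ -
          perSum J k fun d => liftW J N Φ (rowMul A⁻¹ (0, d))))

variable {J : (FractionalIdeal (𝓞 K)⁰ K)ˣ} {N : ℕ} [NeZero N] {k : ℕ} {Φ : K → ℂ}

theorem cuspData_of_isPer (h : IsPer J N k Φ) (hk : 2 ≤ k) (hk2 : k = 2 → 2 ≤ finrank ℚ K) :
    CuspData J N k Φ := by
  rcases Nat.eq_or_lt_of_le hk with rfl | hk'
  swap
  · refine ⟨eisPer J N k Φ, fun g hg => h.inv hg, fun A τ => ?_⟩
    rw [h.slash_eq]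
    exact hasSum_psiSum (h.lift.comp A⁻¹) hk' τ
  have hn := hk2 rfl
  have hslash : ∀ (A : SL(2, ℤ)) (τ : ℍ),
      (FA.KlingenTwo.eisPerTwo J N Φ ∣[((2 * finrank ℚ K : ℕ) : ℤ)] A) τ =
        FA.KlingenTwo.eisTwo J N (fun p => liftW J N Φ (rowMul A⁻¹ p)) τ := fun A τ => by
    rw [FA.Eis.slash_sl_apply, FA.KlingenTwo.eisPerTwo, eisTwo_slash h.lift hn,
      ← FA.Eis.denom_eq_den, zpow_neg, zpow_natCast]
    field_simp [denom_ne_zero]
  refine ⟨FA.KlingenTwo.eisPerTwo J N Φ, fun g hg => ?_, fun A τ => ?_⟩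
  · funext τ
    rw [hslash]
    refine tendsto_nhds_unique (tendsto_hSum_two (h.lift.comp g⁻¹) hn τ)
      ((tendsto_hSum_two h.lift hn τ).congr fun s => ?_)
    exact tsum_congr fun x => by
      simp only []
      rw [h.lift_rowMul ((Gamma1 N).inv_mem hg) (repPair_mem J x).1 (repPair_mem J x).2.1]
  · rw [hslash, FA.KlingenTwo.eisTwo, add_sub_cancel_left]
    refine ((FA.KlingenTwo.summable_limW (h.lift.comp A⁻¹) τ).hasSum.mul_left _).congr_fun
      fun q => ?_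
    rw [FA.KlingenTwo.limW, cuspTerm, inv_mul_cancel_left₀ (factor_ne_zero (pMul J N) 2), sq,
      show sgnN q.1.1 * sgnN q.1.1 = 1 by simpa using sgnN_pow_sq 1 (Rep.ne_zero J q.1), one_mul]
    ring

theorem cuspTerm_congr {Ψ Ψ' : K × K → ℂ}
    (h : ∀ c ∈ (J : Set K), ∀ d ∈ (J : Set K), Ψ (c, d) = Ψ' (c, d)) (q : DualPair J N) :
    cuspTerm J N k Ψ q = cuspTerm J N k Ψ' q := by
  rw [cuspTerm, cuspTerm, wHat, wHat, hatSum, hatSum]
  congr 1
  exact Finset.sum_congr rfl fun r hr => by rw [h _ q.1.2.1 r (residues_mem J N hr)]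

/-- A matrix fixing the weight fixes the form. -/
theorem slash_eq_self {F : ℍ → ℂ} (hF : ∀ (A : SL(2, ℤ)) (τ : ℍ), HasSum (fun q : DualPair J N =>
      cuspTerm J N k (fun x => liftW J N Φ (rowMul A⁻¹ x)) q * expTerm (τ : ℂ) q.1.1 q.2)
        ((factor (pMul J N) k)⁻¹ * ((F ∣[((k * finrank ℚ K : ℕ) : ℤ)] A) τ -
          perSum J k fun d => liftW J N Φ (rowMul A⁻¹ (0, d))))) {B : SL(2, ℤ)}
    (hB : ∀ c ∈ (J : Set K), ∀ d ∈ (J : Set K),
      liftW J N Φ (rowMul B⁻¹ (c, d)) = liftW J N Φ (c, d)) :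
    F ∣[((k * finrank ℚ K : ℕ) : ℤ)] B = F := by
  funext τ
  have h1 := hF 1 τ
  simp only [inv_one, rowMul_one, SlashAction.slash_one] at h1
  have h2 := (hF B τ).congr_fun
    (g := fun q => cuspTerm J N k (fun x => liftW J N Φ x) q * expTerm (τ : ℂ) q.1.1 q.2)
    fun q => by
      rw [cuspTerm_congr (Ψ := fun x => liftW J N Φ (rowMul B⁻¹ x))
        (Ψ' := fun x => liftW J N Φ x) hB q]
  have hC : (perSum J k fun d => liftW J N Φ (rowMul B⁻¹ (0, d))) =
      perSum J k fun d => liftW J N Φ (0, d) :=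
    tsum_congr fun d => by simp only []; rw [hB 0 (zero_mem_ideal J) d.1 d.2.1]
  have e := mul_left_cancel₀ (inv_ne_zero (factor_ne_zero (pMul J N) k)) (h2.unique h1)
  rw [hC] at e
  exact sub_left_inj.1 e

variable {O : ValuationSubring ℂ} {p : ℕ} [NeZero p]
variable {J₀ : (FractionalIdeal (𝓞 K)⁰ K)ˣ} {res : K → ℂ}

/-- The size of `|N ν| D` for `ν` prime to `p` and for the others. -/
theorem norm_scale_spec (hp : p.Prime) (hℓ : O.valuation (p : ℂ) < 1) (hN : ¬p ∣ N) {ν : K}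
    (hν : ν ∈ (J₀ : Set K)) :
    (Gen p J₀ ν → O.valuation ((|Algebra.norm ℚ ν| * dualScale (dualLat J₀ N) : ℚ) : ℂ) = 1) ∧
    (¬Gen p J₀ ν →
      O.valuation ((|Algebra.norm ℚ ν| * dualScale (dualLat J₀ N) : ℚ) : ℂ) ≤
        O.valuation (p : ℂ)) := by
  obtain ⟨A, hA⟩ : ∃ A : Ideal (𝓞 K), (A : FractionalIdeal (𝓞 K)⁰ K) * J₀ =
      FractionalIdeal.spanSingleton (𝓞 K)⁰ ν := by
    obtain ⟨A, hA⟩ := FractionalIdeal.le_one_iff_exists_coeIdeal.1
      ((mul_le_mul' (FractionalIdeal.spanSingleton_le_iff_mem.2 hν) le_rfl).trans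
        (mul_inv_cancel₀ J₀.ne_zero).le)
    exact ⟨A, by rw [hA, mul_assoc, inv_mul_cancel₀ J₀.ne_zero, mul_one]⟩
  have h0 : FractionalIdeal.absNorm (J₀ : FractionalIdeal (𝓞 K)⁰ K) ≠ 0 :=
    fun e => J₀.ne_zero (FractionalIdeal.absNorm_eq_zero_iff.1 e)
  have hd : ((discr K).natAbs : ℚ) ≠ 0 :=
    Nat.cast_ne_zero.2 (Int.natAbs_ne_zero.2 (discr_ne_zero K))
  have e : |Algebra.norm ℚ ν| * dualScale (dualLat J₀ N) =
      (Ideal.absNorm A : ℚ) / (N : ℚ) ^ finrank ℚ K := by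
    have e' := congrArg FractionalIdeal.absNorm hA
    rw [map_mul, FractionalIdeal.coeIdeal_absNorm, FractionalIdeal.absNorm_span_singleton] at e'
    rw [← e', dualScale, absNorm_dualIdeal, dualScale, absNorm_pMul]
    have hN0 : (N : ℚ) ^ finrank ℚ K ≠ 0 := pow_ne_zero _ (Nat.cast_ne_zero.2 (NeZero.ne N))
    field_simp
  have hv : O.valuation ((|Algebra.norm ℚ ν| * dualScale (dualLat J₀ N) : ℚ) : ℂ) =
      O.valuation (Ideal.absNorm A : ℂ) := by
    rw [e, Rat.cast_div, Rat.cast_natCast, Rat.cast_pow, Rat.cast_natCast, map_div₀, map_pow,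
      val_natCast_eq_one hp hℓ hN, one_pow, div_one]
  refine ⟨fun hg => hv ▸ val_natCast_eq_one hp hℓ (not_dvd_absNorm hp ((gen_iff hA).1 hg)),
    fun hg => ?_⟩
  obtain ⟨z, hz⟩ := dvd_absNorm hp fun h => hg ((gen_iff hA).2 h)
  rw [hv, hz, Nat.cast_mul, map_mul]
  exact mul_le_of_le_one_right' (val_natCast_le z)

/-- Congruent powers of a unit. -/
theorem val_unit_pow_sub (hp : p.Prime) (hℓ : O.valuation (p : ℂ) < 1) {b : ℚ}
    (hb : O.valuation (b : ℂ) = 1) {a j j' : ℕ} (hjj : j ≤ j')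
    (hd : (p - 1) * p ^ a ∣ j' - j) :
    O.valuation ((b : ℂ) ^ j' - (b : ℂ) ^ j) ≤ O.valuation (p : ℂ) ^ (a + 1) := by
  have h := FA.WeightLevel.val_pow_sub_pow hp hℓ hb.le (a := a) (j := j + (a + 1))
    (j' := j' + (a + 1)) (by omega) (by omega) (by rwa [Nat.add_sub_add_right])
  rwa [pow_add (b : ℂ) j', pow_add (b : ℂ) j (a + 1), ← sub_mul, map_mul, map_pow _ _ (a + 1), hb,
    one_pow, mul_one] at h

/-- **The high weight and the stripped value.** -/
theorem val_normVal_strip (hp : p.Prime) (hℓ : O.valuation (p : ℂ) < 1) (h5 : 5 ≤ p)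
    (hN : ¬p ∣ N) {a r k' : ℕ} (hk : 2 ≤ k) (hk2 : k = 2 → 2 ≤ finrank ℚ K)
    (har : a + 1 + finrank ℚ K ≤ r) (hk' : k' = k + (p - 1) * p ^ r)
    (hadm : ¬(p - 1) ∣ 2 * (k * finrank ℚ K) ∨
      (Even (k * finrank ℚ K) ∧ ¬(p - 1) ∣ k * finrank ℚ K))
    (h : IsPer J₀ N k res) (h' : IsPer J₀ N k' res)
    (hval : ∀ x ∈ (J₀ : Set K), O.valuation (res x) ≤ 1) :
    O.valuation (((dualScale (dualLat J₀ N) ^ (k' - 1) : ℚ) : ℂ) *
        normVal (dualLat J₀ N) N k' (hatSum J₀ N res) -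
      ((p : ℂ) ^ finrank ℚ K)⁻¹ * (((dualScale (dualLat J₀ N) ^ (k - 1) : ℚ) : ℂ) *
        normVal (dualLat J₀ (p * N)) (p * N) k (hatSum J₀ (p * N) (stripRes p J₀ res)))) ≤
      O.valuation (p : ℂ) ^ (a + 1) := by
  obtain ⟨n, hn⟩ : ∃ n, n = finrank ℚ K := ⟨_, rfl⟩
  have hn0 : 1 ≤ n := hn ▸ finrank_pos
  obtain ⟨J, hJ⟩ : ∃ J, J = dualLat J₀ N := ⟨_, rfl⟩
  obtain ⟨J', hJ'⟩ : ∃ J', J' = dualLat J₀ (p * N) := ⟨_, rfl⟩
  obtain ⟨Φ, hΦ⟩ : ∃ Φ, Φ = hatSum J₀ N res := ⟨_, rfl⟩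
  obtain ⟨Φ', hΦ'⟩ : ∃ Φ', Φ' = hatSum J₀ (p * N) (stripRes p J₀ res) := ⟨_, rfl⟩
  rw [← hJ, ← hJ', ← hΦ, ← hΦ', ← hn]
  rw [← hn] at hadm har
  have hpn : (p : ℂ) ^ n ≠ 0 := pow_ne_zero _ (Nat.cast_ne_zero.2 hp.ne_zero)
  have hpk : (p - 1) ∣ k' - k := ⟨p ^ r, by omega⟩
  have hevk : Even (k' - k) := even_iff_two_dvd.2 ((hp.even_sub_one (by omega)).two_dvd.trans hpk)
  have hperJ : IsPer J N k Φ := hJ ▸ hΦ ▸ isPer_hat h
  have hperJk' : IsPer J N k' Φ := hJ ▸ hΦ ▸ isPer_hat h'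
  have hper' : IsPer J' (p * N) k Φ' := hJ' ▸ hΦ' ▸ isPer_hat (isPer_stripRes h)
  have hΦv : ∀ d ∈ (J : Set K), O.valuation (Φ d) ≤ 1 := fun d hd => by
    rw [hΦ]
    exact FA.ClassIntegral.val_hatSum hval (by rwa [hJ] at hd)
  have hΦ'v : ∀ d ∈ (J' : Set K), O.valuation (Φ' d) ≤ 1 := fun d hd => by
    rw [hΦ']
    exact FA.ClassIntegral.val_hatSum (fun x hx => val_stripRes hval hx) (by rwa [hJ'] at hd)
  have hD0 : pMul J N = pMul J' (p * N) := by rw [hJ, hJ', pMul_dualLat, pMul_dualLat]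
  have hdual : dualIdeal (pMul J N) = J₀ ∧ dualIdeal (pMul J' (p * N)) = J₀ := by
    rw [hJ, hJ']
    exact ⟨dual_pMul_dualLat J₀ N, dual_pMul_dualLat J₀ (p * N)⟩
  have hfac : ∀ j, factor (pMul J N) j = factor (pMul J' (p * N)) j := fun j => by rw [hD0]
  obtain ⟨Fib, hF0, hFpos, hFq⟩ := exists_fibre_coeff J N
  obtain ⟨Fib', hF0', hFpos', hFq'⟩ := exists_fibre J' (p * N)
  obtain ⟨F', hFinv', hFs'⟩ := cuspData_of_isPer hper' hk hk2
  obtain ⟨F, hFinv, hFs⟩ :=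
    cuspData_of_isPer hperJk' (hk' ▸ hk.trans (Nat.le_add_right _ _)) fun e => hk2 (by omega)
  obtain ⟨x', hx'⟩ : ∃ x' : ℂ, x' = ((p : ℂ) ^ n)⁻¹ * ((dualScale J ^ (k - 1) : ℚ) : ℂ) *
      (factor (pMul J' (p * N)) k)⁻¹ := ⟨_, rfl⟩
  obtain ⟨x, hx⟩ : ∃ x : ℂ, x = ((dualScale J ^ (k' - 1) : ℚ) : ℂ) *
      (factor (pMul J N) k')⁻¹ := ⟨_, rfl⟩
  obtain ⟨i, hinj, hi⟩ : ∃ i : DualPair J N → DualPair J' (p * N), Function.Injective i ∧
      ∀ q, ((i q).1.1 : K) = q.1.1 ∧ ((i q).2 : K) = (q.2 : K) := by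
    have h1 : ∀ q : DualPair J N, (q.1.1 : K) ∈ (J' : Set K) := fun q => by
      rw [hJ']
      exact dualLat_le (show (q.1.1 : K) ∈ (dualLat J₀ N : Set K) by rw [← hJ]; exact q.1.2.1)
    have h2 : ∀ q : DualPair J N, (q.2 : K) ∈ (dualIdeal (pMul J' (p * N)) : Set K) := fun q => by
      rw [← hD0]
      exact q.2.2
    refine ⟨fun q => (⟨q.1.1, h1 q, q.1.2.2⟩, ⟨q.2, h2 q⟩), fun u v e => ?_, fun q => ⟨rfl, rfl⟩⟩
    exact Prod.ext (Subtype.ext (congrArg (fun z : DualPair J' (p * N) => (z.1.1 : K)) e))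
      (Subtype.ext (congrArg (fun z : DualPair J' (p * N) => (z.2 : K)) e))
  have hνJ : ∀ q : DualPair J N, (q.2 : K) ∈ (J₀ : Set K) := fun q => by
    rw [← hdual.1]; exact q.2.2
  have hwv : ∀ (A : SL(2, ℤ)) (q : DualPair J N),
      O.valuation (wHat J N (fun z => liftW J N Φ (rowMul A⁻¹ z)) q.1.1 q.2) ≤ 1 := fun A q =>
    val_wHat (val_lift hΦv A⁻¹) q.1.2.1 q.2.2
  -- the series at the cusps over infinity
  obtain ⟨Q, hQ⟩ : ∃ Q : SL(2, ℤ) → PowerSeries ℂ, ∀ B, Q B = PowerSeries.mk fun m =>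
      ∑ q ∈ Fib m, if Gen p J₀ (q.2 : K) then ((dualScale J ^ (k - 1) : ℚ) : ℂ) *
        cuspTerm J N k (fun z => liftW J N Φ (rowMul B⁻¹ z)) q else 0 := ⟨_, fun _ => rfl⟩
  obtain ⟨Q', hQ'⟩ : ∃ Q' : SL(2, ℤ) → PowerSeries ℂ, ∀ B, Q' B = PowerSeries.mk fun m =>
      ((p : ℂ) ^ n)⁻¹ * ∑ q ∈ Fib' m, ((dualScale J ^ (k - 1) : ℚ) : ℂ) *
        cuspTerm J' (p * N) k (fun z => liftW J' (p * N) Φ' (rowMul B⁻¹ z)) q :=
    ⟨_, fun _ => rfl⟩
  obtain ⟨C', hC'⟩ : ∃ C' : SL(2, ℤ) → ℂ, ∀ B, C' B =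
      perSum J' k fun d => liftW J' (p * N) Φ' (rowMul B⁻¹ (0, d)) := ⟨_, fun _ => rfl⟩
  have hser : ∀ B : SL(2, ℤ), HasQ ((p * N : ℕ) : ℝ)
      ((x' • F') ∣[((k * n : ℕ) : ℤ)] B)
      (PowerSeries.C (x' * C' B) + if (p : ℤ) ∣ B 1 0
        then PowerSeries.expand p hp.ne_zero (Q B) else Q' B) := fun B => by
    obtain ⟨G, hG⟩ : ∃ G : ℍ → ℂ, ∀ τ, G τ = (factor (pMul J' (p * N)) k)⁻¹ *
        ((F' ∣[((k * finrank ℚ K : ℕ) : ℤ)] B) τ - C' B) := ⟨_, fun _ => rfl⟩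
    have hGs : ∀ τ : ℍ, HasSum (fun q : DualPair J' (p * N) =>
        cuspTerm J' (p * N) k (fun z => liftW J' (p * N) Φ' (rowMul B⁻¹ z)) q *
          expTerm (τ : ℂ) q.1.1 q.2) (G τ) := fun τ => by
      rw [hG, hC']
      exact hFs' B τ
    have e : (x' • F') ∣[((k * n : ℕ) : ℤ)] B = (fun _ => x' * C' B) +
        (((p : ℂ) ^ n)⁻¹ * ((dualScale J ^ (k - 1) : ℚ) : ℂ)) • G := by
      funext τ
      rw [ModularForm.SL_smul_slash, hn]
      simp only [Pi.add_apply, Pi.smul_apply, smul_eq_mul, hG, hx', hn]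
      ring
    rw [e]
    refine (HasQ.const _ _).add ?_
    split_ifs with hB
    · refine FA.WeightLevel.hasQ_expand_mul hp.ne_zero ?_
      obtain ⟨T, hT⟩ : ∃ T : DualPair J N → ℂ, ∀ q, T q = if Gen p J₀ (q.2 : K) then
          (p : ℂ) ^ n * cuspTerm J N k (fun z => liftW J N Φ (rowMul B⁻¹ z)) q else 0 :=
        ⟨_, fun _ => rfl⟩
      have hterm : ∀ q : DualPair J' (p * N),
          cuspTerm J' (p * N) k (fun z => liftW J' (p * N) Φ' (rowMul B⁻¹ z)) q =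
          if (q.1.1 : K) ∈ (J : Set K) ∧ Gen p J₀ (q.2 : K) then
            (p : ℂ) ^ n * (((sgnN q.1.1 ^ k * coef k q.1.1 (q.2 : K) : ℚ) : ℂ) *
              wHat J N (fun z => liftW J N Φ (rowMul B⁻¹ z)) q.1.1 q.2) else 0 := fun q => by
        have hq2 : (q.2 : K) ∈ (J₀ : Set K) := by rw [← hdual.2]; exact q.2.2
        subst hJ hJ' hΦ hΦ' hn
        rw [cuspTerm, wHat_strip h hB q.1.2.1 hq2]
        split_ifs <;> ring
      have hsum : ∀ τ : ℍ, HasSum (fun q : DualPair J N => T q * expTerm (τ : ℂ) q.1.1 q.2)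
          (G τ) := fun τ => by
        refine ((hinj.hasSum_iff fun q hq => ?_).2 (hGs τ)).congr_fun fun q => ?_
        · rw [hterm, if_neg fun hc => hq ?_, zero_mul]
          exact ⟨(⟨q.1.1, hc.1, q.1.2.2⟩, ⟨q.2, by rw [hD0]; exact q.2.2⟩),
            Prod.ext (Subtype.ext (hi _).1) (Subtype.ext (hi _).2)⟩
        · rw [Function.comp_apply, hterm, (hi q).1, (hi q).2, hT, cuspTerm]
          simp [show (q.1.1 : K) ∈ (J : Set K) from q.1.2.1]
      have hq := hFq T G (fun q hq => by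
        rw [hT, cuspTerm, coef, if_neg hq]
        simp) hsum
      convert hq.smul (((p : ℂ) ^ n)⁻¹ * ((dualScale J ^ (k - 1) : ℚ) : ℂ)) using 1
      ext m
      rw [hQ, PowerSeries.coeff_mk, PowerSeries.coeff_smul, PowerSeries.coeff_mk, smul_eq_mul,
        Finset.mul_sum]
      refine Finset.sum_congr rfl fun q _ => ?_
      rw [hT]
      split_ifs
      · field_simp
      · rw [mul_zero]
    · convert (hFq' k _ G hGs).smul (((p : ℂ) ^ n)⁻¹ * ((dualScale J ^ (k - 1) : ℚ) : ℂ)) using 1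
      ext m
      rw [hQ', PowerSeries.coeff_mk, PowerSeries.coeff_smul, PowerSeries.coeff_mk, smul_eq_mul]
      simp only [Finset.mul_sum, mul_assoc]
  -- the form of high weight
  obtain ⟨C, hC⟩ : ∃ C : SL(2, ℤ) → ℂ, ∀ A, C A =
      perSum J k' fun d => liftW J N Φ (rowMul A⁻¹ (0, d)) := ⟨_, fun _ => rfl⟩
  obtain ⟨S, hS⟩ : ∃ S : SL(2, ℤ) → PowerSeries ℂ, ∀ A, S A = PowerSeries.C (x * C A) +
      PowerSeries.mk fun m => ∑ q ∈ Fib m, ((dualScale J ^ (k' - 1) : ℚ) : ℂ) *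
        cuspTerm J N k' (fun z => liftW J N Φ (rowMul A⁻¹ z)) q := ⟨_, fun _ => rfl⟩
  have hSq : ∀ A, HasQ (N : ℝ) ((x • F) ∣[((k' * n : ℕ) : ℤ)] A) (S A) := fun A => by
    rw [hS]
    have hq := hFq (fun q => cuspTerm J N k' (fun z => liftW J N Φ (rowMul A⁻¹ z)) q)
      (fun τ => (factor (pMul J N) k')⁻¹ *
        ((F ∣[((k' * finrank ℚ K : ℕ) : ℤ)] A) τ - C A))
      (fun q hq => by rw [cuspTerm, coef, if_neg hq]; simp)
      (fun τ => by rw [hC]; exact hFs A τ)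
    convert (HasQ.const (N : ℝ) (x * C A)).add (hq.smul ((dualScale J ^ (k' - 1) : ℚ) : ℂ)) using 1
    · funext τ
      rw [ModularForm.SL_smul_slash, hn]
      simp only [Pi.add_apply, Pi.smul_apply, smul_eq_mul, hx]
      ring
    · congr 1
      ext m
      rw [PowerSeries.coeff_mk, PowerSeries.coeff_smul, PowerSeries.coeff_mk, smul_eq_mul,
        Finset.mul_sum]
  have hnscale : ∀ q : DualPair J N,
      O.valuation ((|Algebra.norm ℚ (q.2 : K)| * dualScale J : ℚ) : ℂ) ≤ 1 := fun q =>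
    val_norm_scale hp hℓ hN q.2.2
  have hterm1 : ∀ (j : ℕ) (A : SL(2, ℤ)) (m : ℕ), ∀ q ∈ Fib m,
      O.valuation (((dualScale J ^ (j - 1) : ℚ) : ℂ) *
        cuspTerm J N j (fun z => liftW J N Φ (rowMul A⁻¹ z)) q) ≤ 1 := fun j A m q hq => by
    rw [scale_cuspTerm (hFpos m q hq), map_mul, map_mul, map_pow,
      val_sign (sgnN_pow_sq j (Rep.ne_zero J q.1)), one_mul]
    exact mul_le_one' (pow_le_one₀ zero_le (hnscale q)) (hwv A q)
  have hW : k' * n = k * n + (p - 1) * (p ^ r * n) := by rw [hk']; ring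
  have hadm' : ¬(p - 1) ∣ 2 * (k' * n) ∨ (Even (k' * n) ∧ ¬(p - 1) ∣ k' * n) :=
    hW ▸ FA.WeightLevel.adm_congr (hp.even_sub_one (by omega)) (dvd_mul_right _ _) hadm
  have hmf : IsMF (Gamma N) (k' * n) (x • F) := by
    refine ⟨fun g hg => ?_, ?_, fun A => (hSq A).bdd (Nat.cast_pos.2 (NeZero.pos N))⟩
    · rw [ModularForm.SL_smul_slash, hn, hFinv g (FA.WeightLevel.Gamma_le_one hg)]
    · have h1 := hSq 1
      rw [SlashAction.slash_one] at h1
      exact h1.mdiff (Nat.cast_pos.2 (NeZero.pos N))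
  have hSpos : ∀ A m, m ≠ 0 → O.valuation (PowerSeries.coeff m (S A)) ≤ 1 := fun A m hm => by
    rw [hS, map_add, PowerSeries.coeff_C, if_neg hm, zero_add, PowerSeries.coeff_mk]
    exact Valuation.map_sum_le _ fun q hq => hterm1 k' A m q hq
  have hS1 : ∀ A m, O.valuation (PowerSeries.coeff m (S A)) ≤ 1 := fun A m => by
    rcases eq_or_ne m 0 with rfl | hm
    · exact FA.WeightLevel.constant_le_level hp hℓ h5 hN hadm' le_rfl hmf S hSq
        (fun A' m hm => hSpos A' m hm) A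
    · exact hSpos A m hm
  have hvp : (0 : O.ValueGroup) < O.valuation (p : ℂ) ^ n :=
    pow_pos (zero_lt_iff.2 ((Valuation.ne_zero_iff _).2 (Nat.cast_ne_zero.2 hp.ne_zero))) n
  have hC'v : ∀ B : SL(2, ℤ), ¬(p : ℤ) ∣ B 1 0 →
      O.valuation (x' * C' B) ≤ (O.valuation (p : ℂ) ^ n)⁻¹ := fun B hB => by
    obtain ⟨ΦB, hΦB⟩ : ∃ ΦB : K → ℂ, ∀ d, ΦB d = liftW J' (p * N) Φ' (rowMul B⁻¹ (0, d)) :=
      ⟨_, fun _ => rfl⟩
    have hsub : ∀ d, d ∈ (J : Set K) → d ∈ (J' : Set K) := fun d hd => by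
      rw [hJ] at hd
      rw [hJ']
      exact dualLat_le hd
    have hsupp : ∀ d ∈ (J' : Set K), d ∉ (J : Set K) → ΦB d = 0 := fun d hd hdJ => by
      subst hJ hJ'
      rw [hΦB, liftW, pMul_dualLat, rowMul_inv_fst, if_neg fun hmem => hdJ ?_]
      refine mem_of_mul hd ((Nat.prime_iff_prime_int.1 hp).coprime_iff_not_dvd.2 hB).symm ?_
      have h1 := int_mul_mem (-(N : ℤ)) hmem
      rwa [show (0 * (B 1 1 : K) - d * (B 1 0 : K)) * ((-(N : ℤ) : ℤ) : K) =
        (N : K) * d * (B 1 0 : K) by push_cast; ring] at h1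
    have hperB : IsPer J N k ΦB := by
      have hw := hper'.lift.comp B⁻¹
      refine ⟨fun d hd y hy => ?_, fun m d hd => ?_⟩
      · have e := hw.periodic 0 (zero_mem_ideal J') d (hsub d hd) 0 (zero_mem_ideal _) y
          (by rwa [← hD0])
        rwa [add_zero, ← hΦB, ← hΦB] at e
      · have e := hw.unit m 0 (zero_mem_ideal J') d (hsub d hd)
        rwa [mul_zero, ← hΦB, ← hΦB] at e
    have hBv : ∀ d ∈ (J : Set K), O.valuation (ΦB d) ≤ 1 := fun d hd => by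
      rw [hΦB]
      exact val_lift hΦ'v B⁻¹ 0 (zero_mem_ideal J') d (hsub d hd)
    have hperSum : C' B = perSum J k ΦB := by
      obtain ⟨T, hT⟩ : ∃ T : K → ℂ, ∀ d, T d = (if d ∈ (J' : Set K) then ΦB d else 0) *
          (((Algebra.norm ℚ d : ℚ) : ℂ) ^ k)⁻¹ := ⟨_, fun _ => rfl⟩
      calc C' B = ∑' d : Rep J', T d.1 := by
            rw [hC', perSum]
            exact tsum_congr fun d => by rw [hT, if_pos d.2.1, hΦB]
        _ = ∑' d : Rep J, T d.1 := FA.ClassIntegral.tsum_rep_eq hsub T fun d hd => by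
            rw [hT]
            split_ifs with hd'
            · rw [hsupp d hd' hd, zero_mul]
            · rw [zero_mul]
        _ = _ := tsum_congr fun d => by rw [hT, if_pos (hsub _ d.2.1)]
    have e : x' * C' B = ((p : ℂ) ^ n)⁻¹ *
        (((dualScale J ^ (k - 1) : ℚ) : ℂ) * normVal J N k ΦB) := by
      rw [hx', hperSum, normVal, ← hfac]
      ring
    rw [e, map_mul, map_inv₀, map_pow]
    refine mul_le_of_le_one_right' ?_
    refine val_of_eisData hp hℓ h5 hN (by omega) (Or.inr (hn ▸ hadm)) ?_ hBv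
    rcases Nat.eq_or_lt_of_le hk with rfl | hk3
    · exact eisData_two hperB (hk2 rfl)
    · exact eisData_normVal hperB hk3
  have hcop : p.Coprime N := hp.coprime_iff_not_dvd.2 hN
  obtain ⟨T, hT⟩ : ∃ T : SL(2, ℤ) → PowerSeries ℂ, ∀ B, T B = PowerSeries.C (x' * C' B) +
      if (p : ℤ) ∣ B 1 0 then PowerSeries.expand p hp.ne_zero (Q B) else Q' B := ⟨_, fun _ => rfl⟩
  have key := constant_trace (O := O) (p := p) (N := N) (a := a) (r := r) (t := n) hp hℓ h5 hN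
    (by omega) hn0 hW hadm' (f := x' • F') (fun g hg hgp => ?_) T (fun B => hT B ▸ hser B) hmf S hSq
    hS1 (fun B hB m hm => ?_) (fun B hB m => ?_) fun A B hB hAB m hm => ?_
  · have e1 : PowerSeries.coeff 0 (S 1) = ((dualScale J ^ (k' - 1) : ℚ) : ℂ) *
        normVal J N k' Φ := by
      rw [hS, map_add, PowerSeries.coeff_C, if_pos rfl, PowerSeries.coeff_mk, hF0,
        Finset.sum_empty, add_zero, hx, hC, normVal, mul_assoc]
      simp only [inv_one, rowMul_one, liftW, if_pos (zero_mem_ideal (pMul J N))]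
    have h10 : (p : ℤ) ∣ (1 : SL(2, ℤ)) 1 0 := by simp
    have e2 : PowerSeries.coeff 0 (T 1) = ((p : ℂ) ^ n)⁻¹ * (((dualScale J ^ (k - 1) : ℚ) : ℂ) *
        normVal J' (p * N) k Φ') := by
      rw [hT, map_add, PowerSeries.coeff_C, if_pos rfl, if_pos h10, PowerSeries.coeff_expand]
      simp only [hQ, PowerSeries.coeff_mk, Nat.zero_div, hF0, Finset.sum_empty, dvd_zero, if_true,
        add_zero]
      rw [hx', hC', normVal, mul_assoc, mul_assoc]
      simp only [inv_one, rowMul_one, liftW, if_pos (zero_mem_ideal (pMul J' (p * N)))]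
    rwa [e1, e2] at key
  · rw [ModularForm.SL_smul_slash, hn]
    congr 1
    refine slash_eq_self hFs' fun c hc d hd => ?_
    subst hJ' hΦ'
    exact lift_strip_invariant h hg hgp hc hd hcop
  · rw [hT, map_add, PowerSeries.coeff_C, if_neg hm, zero_add, if_pos hB, PowerSeries.coeff_expand]
    split_ifs
    · rw [hQ, PowerSeries.coeff_mk]
      refine Valuation.map_sum_le _ fun q hq => ?_
      split_ifs
      · exact hterm1 k B _ q hq
      · rw [map_zero]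
        exact zero_le
    · rw [map_zero]
      exact zero_le
  · refine le_trans (mul_le_mul' ?_ le_rfl)
      (show (O.valuation (p : ℂ) ^ n)⁻¹ * O.valuation (p : ℂ) ^ r ≤ _ from ?_)
    · rw [hT, map_add, if_neg hB]
      refine O.valuation.map_add_le ?_ ?_
      · rw [PowerSeries.coeff_C]
        split_ifs
        · exact hC'v B hB
        · rw [map_zero]
          exact zero_le
      · rw [hQ', PowerSeries.coeff_mk, map_mul, map_inv₀, map_pow]
        refine mul_le_of_le_one_right' (Valuation.map_sum_le _ fun q hq => ?_)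
        have h1 : (q.2 : K) ∈ (dualIdeal (pMul J N) : Set K) := by rw [hD0]; exact q.2.2
        have e : ((dualScale J ^ (k - 1) : ℚ) : ℂ) *
            cuspTerm J' (p * N) k (fun z => liftW J' (p * N) Φ' (rowMul B⁻¹ z)) q =
            ((sgnN q.1.1 ^ k : ℚ) : ℂ) *
              ((|Algebra.norm ℚ (q.2 : K)| * dualScale J : ℚ) : ℂ) ^ (k - 1) *
                wHat J' (p * N) (fun z => liftW J' (p * N) Φ' (rowMul B⁻¹ z)) q.1.1 q.2 := by
          rw [cuspTerm, coef, if_pos (hFpos' m q hq)]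
          push_cast
          ring
        rw [e, map_mul, map_mul, map_pow, val_sign (sgnN_pow_sq k (Rep.ne_zero J' q.1)), one_mul]
        exact mul_le_one' (pow_le_one₀ zero_le (val_norm_scale hp hℓ hN h1))
          (val_wHat (val_lift hΦ'v B⁻¹) q.1.2.1 q.2.2)
    · rw [inv_mul_le_iff₀ hvp, ← pow_add]
      exact pow_le_pow_right_of_le_one' hℓ.le (by omega)
  · have hpm : p * m ≠ 0 := mul_ne_zero hp.ne_zero hm
    rw [hS, hT, map_add, map_add, PowerSeries.coeff_C, PowerSeries.coeff_C, if_neg hm, if_neg hpm,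
      zero_add, zero_add, if_pos hB, PowerSeries.coeff_expand_mul, hQ, PowerSeries.coeff_mk,
      PowerSeries.coeff_mk, ← Finset.sum_sub_distrib]
    refine Valuation.map_sum_le _ fun q hq => ?_
    have hwe : ∀ j, cuspTerm J N j (fun z => liftW J N Φ (rowMul B⁻¹ z)) q =
        cuspTerm J N j (fun z => liftW J N Φ (rowMul A⁻¹ z)) q := fun j =>
      cuspTerm_congr (fun c hc d hd => by
        have e := hperJ.lift_rowMul (FA.WeightLevel.Gamma_le_one hAB) (p := rowMul A⁻¹ (c, d))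
          (add_mem_lat (int_mul_mem _ hc) (int_mul_mem _ hd))
          (add_mem_lat (int_mul_mem _ hc) (int_mul_mem _ hd))
        rwa [rowMul_rowMul, inv_mul_cancel_left] at e) q
    obtain ⟨hb1, hb0⟩ := norm_scale_spec (O := O) (N := N) hp hℓ hN (hνJ q)
    rw [← hJ] at hb1 hb0
    have hsgn : sgnN (q.1.1 : K) ^ k' = sgnN (q.1.1 : K) ^ k := by
      obtain ⟨u, hu⟩ := hevk
      rw [show k' = k + (u + u) by omega, pow_add, pow_add, sgnN_pow_sq u (Rep.ne_zero J q.1),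
        mul_one]
    rw [scale_cuspTerm (hFpos m q hq), hsgn]
    split_ifs with hg
    · rw [hwe, scale_cuspTerm (hFpos m q hq), ← sub_mul, ← mul_sub, map_mul, map_mul,
        val_sign (sgnN_pow_sq k (Rep.ne_zero J q.1)), one_mul]
      refine (mul_le_of_le_one_right' (hwv A q)).trans (val_unit_pow_sub hp hℓ (hb1 hg) (a := a)
        (by omega) ?_)
      rw [show k' - 1 - (k - 1) = (p - 1) * p ^ r by omega]
      exact mul_dvd_mul_left _ (pow_dvd_pow _ (by omega))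
    · rw [sub_zero, map_mul, map_mul, val_sign (sgnN_pow_sq k (Rep.ne_zero J q.1)), one_mul, map_pow]
      refine (mul_le_of_le_one_right' (hwv A q)).trans
        ((pow_le_pow_left₀ zero_le (hb0 hg) _).trans (pow_le_pow_right_of_le_one' hℓ.le ?_))
      have h1 : r < p ^ r := Nat.lt_pow_self hp.one_lt
      have h2 : p ^ r ≤ (p - 1) * p ^ r := Nat.le_mul_of_pos_left _ (by omega)
      omega

end FA.RayPadicL

end
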