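import Fermat.Agent.RayPadicL.Values
import Fermat.Agent.Root.SummaryClassIntegral

/-!
# Euler factors over `p`, for characters and for classes

The L-series without the primes over `p` is the L-series times the Euler factors over `p`. For a
class the zeta function without the ideals meeting `p` is the sum over the squarefree products `d`
of these primes of `μ(d) N d ^ (-s)` times the zeta function of the class divided by that of `d`.
-/

set_option autoImplicit false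
set_option linter.unusedSectionVars false
set_option linter.style.haveILetI false

noncomputable section

open NumberField IsDedekindDomain Module Filter Complex
open scoped Real nonZeroDivisors Classical Topology

namespace FA.RayPadicL

open FA.KlingenRay
open FA.Hecke (IsRayChar heckeL lHom lHom_apply fPow coprimeIdeals RayClassGroup rayClass
  rayCharFn rayCharFn_apply isRayChar_rayCharFn finite_rayClassGroup)
open FA.PrimeIdeal (primePow)
open FA.AbelianZeta (normPow)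

variable {K : Type*} [Field K] [NumberField K]
variable (p : ℕ) [NeZero p]

variable (K) in
/-- The primes over `p`. -/
def overPrimes : Finset (HeightOneSpectrum (𝓞 K)) :=
  (isRayChar_strip (K := K) IsRayChar.one (NeZero.ne p)).finite_zero.toFinset

variable {p} {𝔪 : Ideal (𝓞 K)} {f : Ideal (𝓞 K) →* ℂ}

theorem mem_overPrimes {v : HeightOneSpectrum (𝓞 K)} :
    v ∈ overPrimes K p ↔ v.asIdeal ⊔ Ideal.span {(p : 𝓞 K)} ≠ ⊤ := by
  rw [overPrimes, Set.Finite.mem_toFinset]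
  show stripChar p (1 : Ideal (𝓞 K) →* ℂ) v.asIdeal = 0 ↔ _
  rw [stripChar_apply, MonoidHom.one_apply]
  split_ifs with h <;> simp [h]

/-- **The L-series without the primes over `p`.** -/
theorem heckeL_strip (h : IsRayChar 𝔪 f) {s : ℂ} (hs : 1 < s.re) :
    heckeL (stripChar p f) s = heckeL f s * ∏ v ∈ overPrimes K p, (1 - fPow f s v) := by
  have h' := isRayChar_strip h (NeZero.ne p)
  rw [heckeL_of_induced h' h (fun I _ hI => ?_) hs]
  · congr 1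
    symm
    refine Finset.prod_subset (fun v hv => ?_) fun v hv hv' => ?_
    · rw [Set.Finite.mem_toFinset]
      show stripChar p f v.asIdeal = 0
      rw [stripChar_apply, if_neg (mem_overPrimes.1 hv)]
    · rw [Set.Finite.mem_toFinset] at hv
      have hv0 : f v.asIdeal = 0 := by
        have h0 : stripChar p f v.asIdeal = 0 := hv
        rwa [stripChar_apply, if_pos (not_not.1 fun h1 => hv' (mem_overPrimes.2 h1))] at h0
      rw [fPow, hv0, zero_mul, sub_zero]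
  · rw [stripChar_apply, if_pos]
    exact top_le_iff.1 (hI.ge.trans (sup_le_sup_left Ideal.mul_le_right _))

variable (p) in
/-- The continuation of the stripped series. -/
def stripExt (f : Ideal (𝓞 K) →* ℂ) (Z : ℂ → ℂ) (s : ℂ) : ℂ :=
  Z s * ∏ v ∈ overPrimes K p, (1 - fPow f s v)

theorem isLExt_strip (h : IsRayChar 𝔪 f) {Z : ℂ → ℂ} (hZ : IsLExt f Z) :
    IsLExt (stripChar p f) (stripExt p f Z) :=
  ⟨hZ.1.mul (differentiable_factors _ _).differentiableOn,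
    fun s hs => by rw [heckeL_strip h hs, ← hZ.2 s hs]; rfl⟩

theorem stripExt_one_sub (f : Ideal (𝓞 K) →* ℂ) (Z : ℂ → ℂ) {k : ℕ} (hk : 1 ≤ k) :
    stripExt p f Z (1 - (k : ℂ)) = Z (1 - (k : ℂ)) *
      ∏ v ∈ overPrimes K p, (1 - f v.asIdeal * (Ideal.absNorm v.asIdeal : ℂ) ^ (k - 1)) := by
  simp only [stripExt, fPow, primePow_one_sub _ hk]

/-! ### Classes -/

variable (p) in
/-- The zeta function of a class without the ideals meeting `p`. -/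
def stripClassZeta (h𝔪 : 𝔪 ≠ ⊥) (γ : RayClassGroup 𝔪) (s : ℂ) : ℂ :=
  ∑' I : {I : coprimeIdeals 𝔪 // rayClass h𝔪 I = γ},
    if I.1.1.1 ⊔ Ideal.span {(p : 𝓞 K)} = ⊤ then ((Ideal.absNorm I.1.1.1 : ℕ) : ℂ) ^ (-s) else 0

/-- The class of a prime, `1` on the modulus. -/
def primeClass (h𝔪 : 𝔪 ≠ ⊥) (v : HeightOneSpectrum (𝓞 K)) : RayClassGroup 𝔪 :=
  if h : v.asIdeal ⊔ 𝔪 = ⊤ then
    rayClass h𝔪 ⟨⟨v.asIdeal, mem_nonZeroDivisors_iff_ne_zero.mpr v.ne_bot⟩, h⟩ else 1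

theorem overPrimes_coprime (hp : p.Prime) (hN : ¬p ∣ Ideal.absNorm 𝔪)
    {v : HeightOneSpectrum (𝓞 K)} (hv : v ∈ overPrimes K p) : v.asIdeal ⊔ 𝔪 = ⊤ := by
  by_contra hc
  have hle : 𝔪 ≤ v.asIdeal := by
    by_contra hcon
    exact hc ((v.isPrime.isMaximal v.ne_bot).out.2 _ (left_lt_sup.2 hcon))
  exact hN ((dvd_absNorm hp (mem_overPrimes.1 hv)).trans (Ideal.absNorm_dvd_absNorm_of_le hle))

theorem rayCharFn_prime (hp : p.Prime) (h𝔪 : 𝔪 ≠ ⊥) (hN : ¬p ∣ Ideal.absNorm 𝔪)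
    (χ : RayClassGroup 𝔪 →* ℂˣ) {v : HeightOneSpectrum (𝓞 K)} (hv : v ∈ overPrimes K p) :
    rayCharFn h𝔪 χ v.asIdeal = (χ (primeClass h𝔪 v) : ℂ) := by
  rw [primeClass, dif_pos (overPrimes_coprime hp hN hv), ← rayCharFn_apply]

variable (p) in
/-- The combination of the zeta functions of the classes divided by those of the squarefree products
of the primes over `p`. -/
def stripCombine (h𝔪 : 𝔪 ≠ ⊥) (Z : RayClassGroup 𝔪 → ℂ → ℂ) (γ : RayClassGroup 𝔪) (s : ℂ) : ℂ :=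
  ∑ t ∈ (overPrimes K p).powerset, (-1) ^ t.card * (∏ v ∈ t, primePow s v) *
    Z (γ * (∏ v ∈ t, primeClass h𝔪 v)⁻¹) s

theorem stripCombine_one_sub (h𝔪 : 𝔪 ≠ ⊥) (Z : RayClassGroup 𝔪 → ℂ → ℂ) (γ : RayClassGroup 𝔪)
    {k : ℕ} (hk : 1 ≤ k) : stripCombine p h𝔪 Z γ (1 - (k : ℂ)) =
      ∑ t ∈ (overPrimes K p).powerset, (-1) ^ t.card *
        (∏ v ∈ t, (Ideal.absNorm v.asIdeal : ℂ) ^ (k - 1)) *
          Z (γ * (∏ v ∈ t, primeClass h𝔪 v)⁻¹) (1 - (k : ℂ)) := by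
  simp only [stripCombine, primePow_one_sub _ hk]

/-- A finite sum over characters against the Euler factors. -/
theorem sum_char_factors (hp : p.Prime) (h𝔪 : 𝔪 ≠ ⊥) (hN : ¬p ∣ Ideal.absNorm 𝔪)
    [Fintype (RayClassGroup 𝔪 →* ℂˣ)] (γ : RayClassGroup 𝔪)
    (G : (RayClassGroup 𝔪 →* ℂˣ) → ℂ) (s : ℂ) :
    ∑ χ : RayClassGroup 𝔪 →* ℂˣ, (χ γ⁻¹ : ℂ) *
        (G χ * ∏ v ∈ overPrimes K p, (1 - fPow (rayCharFn h𝔪 χ) s v)) =
      ∑ t ∈ (overPrimes K p).powerset, (-1) ^ t.card * (∏ v ∈ t, primePow s v) *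
        ∑ χ : RayClassGroup 𝔪 →* ℂˣ,
          (χ (γ * (∏ v ∈ t, primeClass h𝔪 v)⁻¹)⁻¹ : ℂ) * G χ := by
  simp only [Finset.mul_sum]
  rw [Finset.sum_comm]
  refine Finset.sum_congr rfl fun χ _ => ?_
  rw [Finset.prod_congr rfl fun v _ => (sub_eq_neg_add 1 (fPow (rayCharFn h𝔪 χ) s v)),
    Finset.prod_add, Finset.mul_sum, Finset.mul_sum]
  refine Finset.sum_congr rfl fun t ht => ?_
  rw [Finset.prod_const_one, mul_one, Finset.prod_neg, mul_inv_rev, inv_inv, map_mul,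
    Units.val_mul, map_prod, Units.coe_prod,
    Finset.prod_congr rfl (g := fun v => (χ (primeClass h𝔪 v) : ℂ) * primePow s v) fun v hv => by
      rw [fPow, rayCharFn_prime hp h𝔪 hN χ (Finset.mem_powerset.1 ht hv)],
    Finset.prod_mul_distrib]
  ring

theorem stripClassZeta_card (h𝔪 : 𝔪 ≠ ⊥)
    [Fintype (RayClassGroup 𝔪)] [Fintype (RayClassGroup 𝔪 →* ℂˣ)] (γ : RayClassGroup 𝔪) {s : ℂ}
    (hs : 1 < s.re) : (Fintype.card (RayClassGroup 𝔪) : ℂ) * stripClassZeta p h𝔪 γ s =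
      ∑ χ : RayClassGroup 𝔪 →* ℂˣ, (χ γ⁻¹ : ℂ) * heckeL (stripChar p (rayCharFn h𝔪 χ)) s := by
  have hsum : ∀ χ : RayClassGroup 𝔪 →* ℂˣ, Summable fun I : (Ideal (𝓞 K))⁰ =>
      (χ γ⁻¹ : ℂ) * lHom (stripChar p (rayCharFn h𝔪 χ)) s I := fun χ =>
    ((isRayChar_strip (isRayChar_rayCharFn h𝔪 χ) (NeZero.ne p)).summable_lHom hs).of_norm.mul_left _
  simp only [heckeL, ← tsum_mul_left]
  rw [← Summable.tsum_finsetSum fun χ _ => hsum χ, stripClassZeta, ← tsum_mul_left]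
  obtain ⟨j, hj⟩ : ∃ j : {I : coprimeIdeals 𝔪 // rayClass h𝔪 I = γ} → (Ideal (𝓞 K))⁰,
      ∀ I, j I = I.1.1 := ⟨_, fun _ => rfl⟩
  have hinj : Function.Injective j := fun a b e => by
    rw [hj, hj] at e
    exact Subtype.ext (Subtype.ext e)
  have hterm : ∀ (χ : RayClassGroup 𝔪 →* ℂˣ) (I : coprimeIdeals 𝔪),
      (χ γ⁻¹ : ℂ) * lHom (stripChar p (rayCharFn h𝔪 χ)) s I.1 =
        (χ (γ⁻¹ * rayClass h𝔪 I) : ℂ) * (if I.1.1 ⊔ Ideal.span {(p : 𝓞 K)} = ⊤ then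
          ((Ideal.absNorm I.1.1 : ℕ) : ℂ) ^ (-s) else 0) := fun χ I => by
    rw [lHom_apply, stripChar_apply, rayCharFn_apply, map_mul, Units.val_mul]
    show _ * (_ * ((Ideal.absNorm I.1.1 : ℕ) : ℂ) ^ (-s)) = _
    split_ifs <;> ring
  symm
  rw [← hinj.tsum_eq (f := fun I : (Ideal (𝓞 K))⁰ => ∑ χ : RayClassGroup 𝔪 →* ℂˣ,
    (χ γ⁻¹ : ℂ) * lHom (stripChar p (rayCharFn h𝔪 χ)) s I) fun I hI => ?_]
  · refine tsum_congr fun I => ?_
    rw [hj]
    simp only [hterm _ I.1, ← Finset.sum_mul]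
    congr 1
    rw [I.2, inv_mul_cancel]
    convert (FA.Weight1.sum_char_apply (U := RayClassGroup 𝔪) 1) using 1
    · simp only [map_one]
      congr 1
      ext; simp
    · simp
  · by_cases hc : I.1 ⊔ 𝔪 = ⊤
    · by_cases hγ : rayClass h𝔪 ⟨I, hc⟩ = γ
      · exact ⟨⟨⟨I, hc⟩, hγ⟩, hj _⟩
      · refine absurd ?_ hI
        simp only [hterm _ ⟨I, hc⟩, ← Finset.sum_mul]
        rw [show ∑ χ : RayClassGroup 𝔪 →* ℂˣ, (χ (γ⁻¹ * rayClass h𝔪 ⟨I, hc⟩) : ℂ) = 0 by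
          convert (FA.Weight1.sum_char_apply (U := RayClassGroup 𝔪) _).trans
            (if_neg fun h => hγ (inv_mul_eq_one.1 h).symm) using 2
          ext; simp, zero_mul]
    · refine absurd (Finset.sum_eq_zero fun χ _ => ?_) hI
      rw [lHom_apply, stripChar_apply, (isRayChar_rayCharFn h𝔪 χ).eq_zero_of_not
        (nonZeroDivisors.coe_ne_zero I) hc]
      simp

/-- There is at most one continuation of a class zeta function. -/
theorem classExt_unique {h𝔪 : 𝔪 ≠ ⊥} {γ : RayClassGroup 𝔪} {Z Z' : ℂ → ℂ}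
    (hZ : IsClassExt h𝔪 γ Z) (hZ' : IsClassExt h𝔪 γ Z') {s : ℂ} (hs : s ≠ 1) : Z s = Z' s := by
  refine (hZ.1.analyticOnNhd isOpen_compl_singleton).eqOn_of_preconnected_of_eventuallyEq
    (hZ'.1.analyticOnNhd isOpen_compl_singleton)
    (isConnected_compl_singleton_of_one_lt_rank (by simp) 1).isPreconnected
    (z₀ := 2) (by simp) ?_ hs
  filter_upwards [(isOpen_lt continuous_const Complex.continuous_re).mem_nhds
    (show (1 : ℝ) < (2 : ℂ).re by norm_num)] with t ht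
  rw [hZ.2 t ht, hZ'.2 t ht]

section Combination

variable [IsTotallyReal K] [Fintype (RayClassGroup 𝔪)] [Fintype (RayClassGroup 𝔪 →* ℂˣ)]
variable {h𝔪 : 𝔪 ≠ ⊥} {Z : RayClassGroup 𝔪 → ℂ → ℂ} {L : (RayClassGroup 𝔪 →* ℂˣ) → ℂ → ℂ}

theorem class_eq_sum (hZ : ∀ γ, IsClassExt h𝔪 γ (Z γ))
    (hL : ∀ χ, IsLExt (rayCharFn h𝔪 χ) (L χ)) (γ : RayClassGroup 𝔪) {s : ℂ} (hs : s ≠ 1) :
    (Fintype.card (RayClassGroup 𝔪) : ℂ) * Z γ s = ∑ χ, (χ γ⁻¹ : ℂ) * L χ s := by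
  have hW : IsClassExt h𝔪 γ fun t =>
      (Fintype.card (RayClassGroup 𝔪) : ℂ)⁻¹ * ∑ χ, (χ γ⁻¹ : ℂ) * L χ t :=
    ⟨(DifferentiableOn.fun_sum fun χ _ => (hL χ).1.const_mul _).const_mul _, fun t ht => by
      simp only [(hL _).2 t ht]
      rw [← card_mul_rayClassZeta h𝔪 γ ht,
        inv_mul_cancel_left₀ (Nat.cast_ne_zero.2 Fintype.card_ne_zero)]⟩
  rw [classExt_unique (hZ γ) hW hs, mul_inv_cancel_left₀ (Nat.cast_ne_zero.2 Fintype.card_ne_zero)]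

theorem stripCombine_eq_sum (hp : p.Prime) (hN : ¬p ∣ Ideal.absNorm 𝔪)
    (hZ : ∀ γ, IsClassExt h𝔪 γ (Z γ)) (hL : ∀ χ, IsLExt (rayCharFn h𝔪 χ) (L χ))
    (γ : RayClassGroup 𝔪) {s : ℂ} (hs : s ≠ 1) :
    (Fintype.card (RayClassGroup 𝔪) : ℂ) * stripCombine p h𝔪 Z γ s =
      ∑ χ, (χ γ⁻¹ : ℂ) * stripExt p (rayCharFn h𝔪 χ) (L χ) s := by
  simp only [stripExt]
  rw [sum_char_factors hp h𝔪 hN γ (fun χ => L χ s) s, stripCombine, Finset.mul_sum]
  refine Finset.sum_congr rfl fun t _ => ?_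
  rw [← class_eq_sum hZ hL _ hs]
  ring

end Combination

/-- **The combination continues the zeta function without the ideals meeting `p`.** -/
theorem stripCombine_eq [IsTotallyReal K] (hp : p.Prime) (h𝔪 : 𝔪 ≠ ⊥)
    (hN : ¬p ∣ Ideal.absNorm 𝔪) {Z : RayClassGroup 𝔪 → ℂ → ℂ}
    (hZ : ∀ γ, IsClassExt h𝔪 γ (Z γ)) (γ : RayClassGroup 𝔪) {s : ℂ} (hs : 1 < s.re) :
    stripCombine p h𝔪 Z γ s = stripClassZeta p h𝔪 γ s := by
  have := finite_rayClassGroup h𝔪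
  have : Fintype (RayClassGroup 𝔪) := Fintype.ofFinite _
  have := FA.Weight1.fintypeDual (U := RayClassGroup 𝔪)
  choose L hL using fun χ : RayClassGroup 𝔪 →* ℂˣ => exists_isLExt (isRayChar_rayCharFn h𝔪 χ)
  have h1 : s ≠ 1 := fun e => by rw [e] at hs; simp at hs
  refine mul_left_cancel₀ (Nat.cast_ne_zero.2 Fintype.card_ne_zero :
    (Fintype.card (RayClassGroup 𝔪) : ℂ) ≠ 0) ?_
  rw [stripCombine_eq_sum hp hN hZ hL γ h1, stripClassZeta_card h𝔪 γ hs]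
  refine Finset.sum_congr rfl fun χ _ => ?_
  rw [(isLExt_strip (isRayChar_rayCharFn h𝔪 χ) (hL χ)).2 s hs]

/-- **The classes sum to the character.** -/
theorem sum_char_stripCombine [IsTotallyReal K] (hp : p.Prime) (h𝔪 : 𝔪 ≠ ⊥)
    (hN : ¬p ∣ Ideal.absNorm 𝔪) [Fintype (RayClassGroup 𝔪)] {Z : RayClassGroup 𝔪 → ℂ → ℂ}
    (hZ : ∀ γ, IsClassExt h𝔪 γ (Z γ)) (χ₀ : RayClassGroup 𝔪 →* ℂˣ) {L₀ : ℂ → ℂ}
    (hL₀ : IsLExt (rayCharFn h𝔪 χ₀) L₀) {s : ℂ} (hs : s ≠ 1) :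
    ∑ γ, (χ₀ γ : ℂ) * stripCombine p h𝔪 Z γ s = stripExt p (rayCharFn h𝔪 χ₀) L₀ s := by
  have := FA.Weight1.fintypeDual (U := RayClassGroup 𝔪)
  choose L hL using fun χ : RayClassGroup 𝔪 →* ℂˣ => exists_isLExt (isRayChar_rayCharFn h𝔪 χ)
  have hc : (Fintype.card (RayClassGroup 𝔪) : ℂ) ≠ 0 := Nat.cast_ne_zero.2 Fintype.card_ne_zero
  refine mul_left_cancel₀ hc ?_
  simp only [Finset.mul_sum, mul_left_comm (Fintype.card (RayClassGroup 𝔪) : ℂ),
    stripCombine_eq_sum hp hN hZ hL _ hs]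
  rw [Finset.sum_comm, Finset.sum_eq_single χ₀]
  · simp only [← mul_assoc, ← Units.val_mul, ← map_mul, mul_inv_cancel, map_one, Units.val_one,
      one_mul, Finset.sum_const, Finset.card_univ, nsmul_eq_mul, stripExt]
    rw [IsLExt.unique (hL χ₀) hL₀ hs, mul_assoc]
  · intro χ _ hne
    obtain ⟨ψ, hψ⟩ : ∃ ψ : RayClassGroup 𝔪 →* ℂ, ∀ γ, ψ γ = (χ₀ γ : ℂ) * (χ γ⁻¹ : ℂ) :=
      ⟨(Units.coeHom ℂ).comp (χ₀ * χ⁻¹), fun γ => by simp⟩
    have hψ1 : ψ ≠ 1 := fun e => hne (MonoidHom.ext fun γ => Units.ext (by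
      have h1 := DFunLike.congr_fun e γ
      rw [hψ, MonoidHom.one_apply, map_inv, Units.val_inv_eq_inv_val,
        mul_inv_eq_one₀ (Units.ne_zero _)] at h1
      exact h1.symm))
    simp only [← mul_assoc, ← hψ, ← Finset.sum_mul, sum_hom_units_eq_zero ψ hψ1, zero_mul]
  · simp

end FA.RayPadicL

end
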