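import Fermat.Agent.ClassIntegral.Combination

/-!
# The residues prime to `p`

An element of a lattice is prime to `p` if it generates the lattice modulo `p`, that is if its
integral ideal is prime to `p`. A character times the indicator of the ideals prime to `p` is a
character modulo `𝔪 (p)` and its residue function is the old one on the elements prime to `p`.
-/

set_option autoImplicit false
set_option linter.unusedSectionVars false
set_option linter.style.haveILetI false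

noncomputable section

open NumberField InfinitePlace IsDedekindDomain Module
open scoped nonZeroDivisors Classical

namespace FA.RayPadicL

open FA.HeckeFE FA.SiegelKlingen FA.HeckeCharFE FA.KlingenRay
open FA.Hecke (IsRayChar)
open FA.PadicEulerFactor (pMul mem_pMul add_mem_lat int_mul_mem)

variable {K : Type*} [Field K] [NumberField K]

/-- The indicator of the ideals prime to `p`. -/
def indChar (p : ℕ) : Ideal (𝓞 K) →* ℂ where
  toFun I := if I ⊔ Ideal.span {(p : 𝓞 K)} = ⊤ then 1 else 0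
  map_one' := by rw [Ideal.one_eq_top, top_sup_eq, if_pos rfl]
  map_mul' I J := by
    simp only [FA.Hecke.mul_sup_eq_top]
    split_ifs <;> simp_all

theorem indChar_apply (p : ℕ) (I : Ideal (𝓞 K)) :
    indChar p I = if I ⊔ Ideal.span {(p : 𝓞 K)} = ⊤ then 1 else 0 := rfl

/-- A character without the primes over `p`. -/
def stripChar (p : ℕ) (f : Ideal (𝓞 K) →* ℂ) : Ideal (𝓞 K) →* ℂ := f * indChar p

theorem stripChar_apply (p : ℕ) (f : Ideal (𝓞 K) →* ℂ) (I : Ideal (𝓞 K)) :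
    stripChar p f I = if I ⊔ Ideal.span {(p : 𝓞 K)} = ⊤ then f I else 0 := by
  rw [stripChar, MonoidHom.mul_apply, indChar_apply]
  split_ifs <;> simp

variable {𝔪 : Ideal (𝓞 K)} {f : Ideal (𝓞 K) →* ℂ} {S : Finset (InfinitePlace K)} {p : ℕ}

theorem isRayChar_strip (h : IsRayChar 𝔪 f) (hp : p ≠ 0) :
    IsRayChar (𝔪 * Ideal.span {(p : 𝓞 K)}) (stripChar p f) where
  ne_bot := mul_ne_zero h.ne_bot (by simpa using hp)
  ne_zero_iff I hI := by
    have e : I ⊔ 𝔪 * Ideal.span {(p : 𝓞 K)} = ⊤ ↔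
        I ⊔ 𝔪 = ⊤ ∧ I ⊔ Ideal.span {(p : 𝓞 K)} = ⊤ := by
      simp only [← Ideal.isCoprime_iff_sup_eq, IsCoprime.mul_right_iff]
    rw [e, stripChar_apply, ← h.ne_zero_iff I hI]
    by_cases hc : I ⊔ Ideal.span {(p : 𝓞 K)} = ⊤ <;> simp [hc]
  ray x hx hx1 hpos := by
    rw [stripChar_apply, if_pos, h.ray x hx (Ideal.mul_le_left hx1) hpos]
    rw [FA.Hecke.span_sup_congr (show x - 1 ∈ Ideal.span {(p : 𝓞 K)} from Ideal.mul_le_right hx1),
      Ideal.span_singleton_one, top_sup_eq]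

theorem hasSigns_strip (h : HasSigns 𝔪 f S) (hp : p ≠ 0) :
    HasSigns (𝔪 * Ideal.span {(p : 𝓞 K)}) (stripChar p f) S where
  ray := isRayChar_strip h.ray hp
  real := h.real
  sgn x hx hx1 := by
    rw [stripChar_apply, if_pos, h.sgn x hx (Ideal.mul_le_left hx1)]
    rw [FA.Hecke.span_sup_congr (show x - 1 ∈ Ideal.span {(p : 𝓞 K)} from Ideal.mul_le_right hx1),
      Ideal.span_singleton_one, top_sup_eq]

/-- An ideal prime to `p` has norm prime to `p`. -/
theorem not_dvd_absNorm (hp : p.Prime) {A : Ideal (𝓞 K)}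
    (hc : A ⊔ Ideal.span {(p : 𝓞 K)} = ⊤) : ¬p ∣ Ideal.absNorm A := fun hd => by
  obtain ⟨P, hP, hPu, hPA⟩ := Ideal.exists_isMaximal_dvd_of_dvd_absNorm' hp A hd
  refine hP.ne_top (top_le_iff.1 (hc.ge.trans (sup_le (Ideal.le_of_dvd hPA)
    ((Ideal.span_singleton_le_iff_mem _).2 ?_))))
  have h : (p : ℤ) ∈ P.under ℤ := hPu ▸ Ideal.mem_span_singleton_self _
  simpa [Ideal.mem_comap] using h

/-- An ideal not prime to `p` has norm divisible by `p`. -/
theorem dvd_absNorm (hp : p.Prime) {A : Ideal (𝓞 K)}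
    (hc : A ⊔ Ideal.span {(p : 𝓞 K)} ≠ ⊤) : p ∣ Ideal.absNorm A := by
  obtain ⟨P, hP, hle⟩ := Ideal.exists_le_maximal _ hc
  have h1 : Ideal.absNorm P ∣ p ^ finrank ℚ K := by
    have h := Ideal.absNorm_dvd_absNorm_of_le (le_sup_right.trans hle)
    rwa [show (p : 𝓞 K) = algebraMap ℤ (𝓞 K) (p : ℤ) by simp, Ideal.absNorm_span_singleton,
      Algebra.norm_algebraMap, Int.natAbs_pow, Int.natAbs_natCast, RingOfIntegers.rank K] at h
  obtain ⟨i, -, hi⟩ := (Nat.dvd_prime_pow hp).1 h1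
  refine dvd_trans ?_ (Ideal.absNorm_dvd_absNorm_of_le (le_sup_left.trans hle))
  rcases Nat.eq_zero_or_pos i with rfl | hi0
  · exact absurd (Ideal.absNorm_eq_one_iff.1 (hi.trans (pow_zero p))) hP.ne_top
  · exact hi ▸ dvd_pow_self p hi0.ne'

section Lattice

variable [IsTotallyReal K] (J : (FractionalIdeal (𝓞 K)⁰ K)ˣ) (p) [NeZero p]

theorem ringInt_mul_mem {x : K} (hx : x ∈ (J : Set K)) (a : 𝓞 K) : (a : K) * x ∈ (J : Set K) :=
  Submodule.smul_mem ((J : FractionalIdeal (𝓞 K)⁰ K) : Submodule (𝓞 K) K) a hx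

/-- `x` generates `J` modulo `p`. -/
def Gen (x : K) : Prop := ∀ y ∈ (J : Set K), ∃ a : 𝓞 K, y - (a : K) * x ∈ (pMul J p : Set K)

/-- A function on the elements prime to `p`. -/
def stripRes (Φ : K → ℂ) (x : K) : ℂ := if Gen p J x then Φ x else 0

variable {J p}

theorem gen_add {x z : K} (hz : z ∈ (pMul J p : Set K)) : Gen p J (x + z) ↔ Gen p J x := by
  refine ⟨fun h y hy => ?_, fun h y hy => ?_⟩ <;> obtain ⟨a, ha⟩ := h y hy <;> refine ⟨a, ?_⟩
  · rw [show y - (a : K) * x = y - (a : K) * (x + z) + (a : K) * z by ring]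
    exact add_mem_lat ha (ringInt_mul_mem _ hz a)
  · rw [show y - (a : K) * (x + z) = y - (a : K) * x - (a : K) * z by ring]
    exact sub_mem_lat _ ha (ringInt_mul_mem _ hz a)

theorem gen_mul {u v : 𝓞 K} (huv : (p : 𝓞 K) ∣ u * v - 1) {x : K} (hx : x ∈ (J : Set K)) :
    Gen p J ((u : K) * x) ↔ Gen p J x := by
  refine ⟨fun h y hy => ?_, fun h y hy => ?_⟩ <;> obtain ⟨a, ha⟩ := h y hy
  · exact ⟨a * u, by push_cast; rwa [mul_assoc]⟩
  · obtain ⟨z, hz⟩ := huv
    refine ⟨a * v, ?_⟩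
    have hz' := congrArg (fun t : 𝓞 K => (t : K)) hz
    push_cast at hz' ⊢
    rw [show y - (a : K) * v * ((u : K) * x) =
      y - (a : K) * x - (p : K) * (((a * z : 𝓞 K) : K) * x) by
        push_cast; linear_combination (-(a : K) * x) * hz']
    exact sub_mem_lat _ ha (mul_mem_pMul J p (ringInt_mul_mem J hx _))

theorem gen_intMul {u v : ℤ} (huv : (p : ℤ) ∣ u * v - 1) {x : K} (hx : x ∈ (J : Set K)) :
    Gen p J ((u : K) * x) ↔ Gen p J x := by
  obtain ⟨z, hz⟩ := huv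
  simpa using gen_mul (J := J) (p := p) (u := (u : 𝓞 K)) (v := (v : 𝓞 K))
    ⟨(z : 𝓞 K), by exact_mod_cast congrArg (Int.cast : ℤ → 𝓞 K) hz⟩ hx

theorem gen_neg (x : K) : Gen p J (-x) ↔ Gen p J x := by
  refine ⟨fun h y hy => ?_, fun h y hy => ?_⟩ <;> obtain ⟨a, ha⟩ := h y hy <;>
    exact ⟨-a, by push_cast; simpa using ha⟩

theorem gen_unit (m : RestPlace K → ℤ) {x : K} (hx : x ∈ (J : Set K)) :
    Gen p J (unitVal m * x) ↔ Gen p J x :=
  gen_mul (u := (unitPow m : 𝓞 K)) (v := ((unitPow m)⁻¹ : (𝓞 K)ˣ)) (by simp) hx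

/-- **The elements prime to `p` are those with ideal prime to `p`.** -/
theorem gen_iff {x : K} {A : Ideal (𝓞 K)} (hA : (A : FractionalIdeal (𝓞 K)⁰ K) * J =
    FractionalIdeal.spanSingleton (𝓞 K)⁰ x) :
    Gen p J x ↔ A ⊔ Ideal.span {(p : 𝓞 K)} = ⊤ := by
  refine ⟨fun h => ?_, fun h y hy => ?_⟩
  · obtain ⟨Q, hQ⟩ : ∃ Q : Ideal (𝓞 K), Q = A ⊔ Ideal.span {(p : 𝓞 K)} := ⟨_, rfl⟩
    have hAQ : A ≤ Q := hQ ▸ le_sup_left
    have hpQ : Ideal.span {(p : 𝓞 K)} ≤ Q := hQ ▸ le_sup_right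
    rw [← hQ]
    have hle : (J : FractionalIdeal (𝓞 K)⁰ K) ≤ (Q : FractionalIdeal (𝓞 K)⁰ K) * J := by
      intro y hy
      obtain ⟨a, ha⟩ := h y hy
      rw [show y = (a : K) * x + (y - (a : K) * x) by ring]
      refine Submodule.add_mem _ ?_ ?_
      · refine (mul_le_mul' ((FractionalIdeal.coeIdeal_le_coeIdeal K).2 hAQ) le_rfl :) ?_
        rw [hA]
        exact (FractionalIdeal.mem_spanSingleton _).2 ⟨a, rfl⟩
      · refine (mul_le_mul' ((FractionalIdeal.coeIdeal_le_coeIdeal K).2 hpQ) le_rfl :) ?_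
        rw [← mul_div_cancel₀ (y - (a : K) * x) (Nat.cast_ne_zero.2 (NeZero.ne p) : (p : K) ≠ 0)]
        exact FractionalIdeal.mul_mem_mul ((FractionalIdeal.mem_coeIdeal _).2
          ⟨_, Ideal.mem_span_singleton_self _, map_natCast _ _⟩) (mem_pMul.1 ha)
    refine (FractionalIdeal.coeIdeal_eq_one (K := K).1
      (mul_right_cancel₀ J.ne_zero ?_)).trans Ideal.one_eq_top
    rw [one_mul]
    exact le_antisymm
      ((mul_le_mul' FractionalIdeal.coeIdeal_le_one le_rfl).trans (one_mul _).le) hle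
  · obtain ⟨a, ha, b, hb, hab⟩ := Submodule.mem_sup.1 ((Ideal.eq_top_iff_one _).1 h)
    obtain ⟨c, rfl⟩ := Ideal.mem_span_singleton.1 hb
    obtain ⟨z, hz⟩ : ∃ z : 𝓞 K, (z : K) * x = (a : K) * y := by
      obtain ⟨z, hz⟩ := (FractionalIdeal.mem_spanSingleton _).1 (hA ▸ FractionalIdeal.mul_mem_mul
        ((FractionalIdeal.mem_coeIdeal _).2 ⟨a, ha, rfl⟩) hy)
      exact ⟨z, (Algebra.smul_def z x).symm.trans hz⟩
    have hab' := congrArg (fun t : 𝓞 K => (t : K)) hab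
    push_cast at hab'
    refine ⟨z, ?_⟩
    rw [show y - (z : K) * x = (p : K) * ((c : K) * y) by linear_combination (-y) * hab' - hz]
    exact mul_mem_pMul J p (ringInt_mul_mem J hy c)

variable {N : ℕ} [NeZero N] {k : ℕ} {Φ : K → ℂ}

theorem isPer_stripRes (h : IsPer J N k Φ) : IsPer J (p * N) k (stripRes p J Φ) where
  periodic d hd y hy := by
    have h' := mem_pMul.1 hy
    push_cast at h'
    have hyp : y ∈ (pMul J p : Set K) := by
      rw [mem_pMul]
      have := int_mul_mem (B := J) (N : ℤ) h'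
      rwa [Int.cast_natCast, mul_comm (p : K), ← div_div, div_mul_eq_mul_div,
        mul_comm (y / (N : K)), mul_div_cancel₀ _ (Nat.cast_ne_zero.2 (NeZero.ne N) : (N : K) ≠ 0)]
        at this
    have hyN : y ∈ (pMul J N : Set K) := by
      rw [mem_pMul]
      have := int_mul_mem (B := J) (p : ℤ) h'
      rwa [Int.cast_natCast, ← div_div, div_right_comm,
        div_mul_cancel₀ _ (Nat.cast_ne_zero.2 (NeZero.ne p) : (p : K) ≠ 0)] at this
    simp only [stripRes, gen_add hyp, h.periodic d hd y hyN]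
  unit m d hd := by
    simp only [stripRes, gen_unit m hd, h.unit m d hd, mul_ite, mul_zero]

theorem val_stripRes {O : ValuationSubring ℂ}
    (hΦ : ∀ r ∈ (J : Set K), O.valuation (Φ r) ≤ 1) {r : K} (hr : r ∈ (J : Set K)) :
    O.valuation (stripRes p J Φ r) ≤ 1 := by
  rw [stripRes]
  split_ifs
  · exact hΦ r hr
  · rw [map_zero]
    exact zero_le

variable {ι : Type*} {F : ι → Ideal (𝓞 K) →* ℂ} {P : Finset ι} {c : ι → ℂ}

open FA.ClassIntegral (combRes)
open FA.KlingenZero (mem_of_mem_mul_modUnit)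

/-- **The residue functions of the stripped characters.** -/
theorem combRes_strip (h𝔪 : 𝔪 ≠ ⊥) (hS : ∀ i ∈ P, HasSigns 𝔪 (F i) S) {r : K}
    (hr : r ∈ (J : Set K)) :
    combRes (𝔪 * Ideal.span {(p : 𝓞 K)}) (fun i => stripChar p (F i)) S P c J r =
      stripRes p J (combRes 𝔪 F S P c J) r := by
  have h' : 𝔪 * Ideal.span {(p : 𝓞 K)} ≠ ⊥ :=
    mul_ne_zero h𝔪 (by simpa using NeZero.ne p)
  obtain ⟨x, hx, hx0, hrx⟩ : ∃ x, x ∈ (J : Set K) ∧ x ≠ 0 ∧ r - x ∈
      (J : FractionalIdeal (𝓞 K)⁰ K) *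
        ((𝔪 * Ideal.span {(p : 𝓞 K)} : Ideal (𝓞 K)) : FractionalIdeal (𝓞 K)⁰ K) := by
    by_cases h0 : r = 0
    · obtain ⟨y, hy, hy0⟩ : ∃ y, y ∈ ((J * modUnit (𝔪 * Ideal.span {(p : 𝓞 K)}) : _) : Set K) ∧
          y ≠ 0 := by
        by_contra hne
        push Not at hne
        exact (J * modUnit _).ne_zero (FractionalIdeal.eq_zero_iff.2 hne)
      refine ⟨y, mem_of_mem_mul_modUnit J h' hy, hy0, ?_⟩
      rw [h0, zero_sub]
      exact Submodule.neg_mem _ ((FA.KlingenZero.mem_mul_modUnit_iff J h' y).1 hy)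
    · exact ⟨r, hr, h0, by rw [sub_self]; exact Submodule.zero_mem _⟩
  have hm1 : 𝔪 * Ideal.span {(p : 𝓞 K)} ≤ 𝔪 := Ideal.mul_le_left
  have hm2 : 𝔪 * Ideal.span {(p : 𝓞 K)} ≤ Ideal.span {(p : 𝓞 K)} := Ideal.mul_le_right
  have hrm : r - x ∈ (J : FractionalIdeal (𝓞 K)⁰ K) * (𝔪 : FractionalIdeal (𝓞 K)⁰ K) :=
    (mul_le_mul' le_rfl ((FractionalIdeal.coeIdeal_le_coeIdeal K).2 hm1) :) hrx
  have hrp : r - x ∈ (pMul J p : Set K) := by
    have h1 : (J : FractionalIdeal (𝓞 K)⁰ K) *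
        ((𝔪 * Ideal.span {(p : 𝓞 K)} : Ideal (𝓞 K)) : FractionalIdeal (𝓞 K)⁰ K) ≤
        (pMul J p : FractionalIdeal (𝓞 K)⁰ K) := by
      rw [pMul, Units.val_mul, Units.val_mk0, mul_comm _ (J : FractionalIdeal (𝓞 K)⁰ K),
        ← map_natCast (algebraMap (𝓞 K) K), ← FractionalIdeal.coeIdeal_span_singleton]
      exact mul_le_mul' le_rfl ((FractionalIdeal.coeIdeal_le_coeIdeal K).2 hm2)
    exact h1 hrx
  have hgen : Gen p J r ↔ Gen p J x := by
    rw [← sub_add_cancel r x, add_comm, gen_add hrp]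
  simp only [stripRes, hgen, combRes]
  obtain ⟨A, hA⟩ : ∃ A : Ideal (𝓞 K), (A : FractionalIdeal (𝓞 K)⁰ K) * J =
      FractionalIdeal.spanSingleton (𝓞 K)⁰ x := by
    obtain ⟨A, hA⟩ := FractionalIdeal.le_one_iff_exists_coeIdeal.1
      ((mul_le_mul' (FractionalIdeal.spanSingleton_le_iff_mem.2 hx) le_rfl).trans
        (mul_inv_cancel₀ J.ne_zero).le)
    exact ⟨A, by rw [hA, mul_assoc, inv_mul_cancel₀ J.ne_zero, mul_one]⟩
  have e : ∀ i ∈ P, res (𝔪 * Ideal.span {(p : 𝓞 K)}) (stripChar p (F i)) S J r =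
      if Gen p J x then res 𝔪 (F i) S J r else 0 := fun i hi => by
    rw [(hasSigns_strip (hS i hi) (NeZero.ne p)).res_congr J hr hx hrx,
      (hasSigns_strip (hS i hi) (NeZero.ne p)).res_eq J hx hx0 hA, (hS i hi).res_congr J hr hx hrm,
      (hS i hi).res_eq J hx hx0 hA, stripChar_apply, gen_iff hA]
    split_ifs <;> simp
  rw [Finset.sum_congr rfl fun i hi => by rw [e i hi]]
  split_ifs <;> simp

end Lattice

end FA.RayPadicL

end
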