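import Fermat.Agent.RayPadicL.Euler
import Fermat.Agent.TotallyRealKummer.Padic
import Fermat.Agent.Root.SummaryRayKummer

/-!
# Interpolation on `ℤ_p`

The stripped values of a class along a class of weights modulo `p - 1` vary by a strict contraction
of the index, so they extend uniquely to `ℤ_p`, and the plain values tend to the extension.
-/

set_option autoImplicit false
set_option linter.unusedSectionVars false
set_option linter.style.haveILetI false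

noncomputable section

open NumberField IsDedekindDomain Module Filter
open scoped nonZeroDivisors Classical Topology

namespace FA.RayPadicL

open FA.KlingenRay
open FA.Hecke (RayClassGroup rayClass rayCharFn rayCharFn_apply isRayChar_rayCharFn coprimeIdeals
  finite_rayClassGroup)
open FA.TotallyRealKummer (norm_sub_le_of pow_neg_le kOf)

/-- A rational small at every place over `p`. -/
theorem norm_rat_le {p : ℕ} [Fact p.Prime] {x : ℚ} (e : ℕ)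
    (h : ∀ O : ValuationSubring ℂ, O.valuation (p : ℂ) < 1 →
      O.valuation (x : ℂ) ≤ O.valuation (p : ℂ) ^ e) :
    ‖(x : ℚ_[p])‖ ≤ (p : ℝ) ^ (-(e : ℤ)) := by
  have hp : p.Prime := Fact.out
  obtain ⟨y, hy⟩ : ∃ y, y = x / (p : ℚ) ^ e := ⟨_, rfl⟩
  have hx : x = (p : ℚ) ^ e * y := by
    rw [hy, mul_div_cancel₀ _ (pow_ne_zero _ (Nat.cast_ne_zero.2 hp.ne_zero))]
  have hden : ¬p ∣ y.den := fun hd =>
    FA.ClassIntegral.Summary.den_of_integral (fun q => q ≠ p) (r := y)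
      (fun O q hqp hqv hgood => by
        obtain rfl : q = p := not_not.1 hgood
        rw [hy, Rat.cast_div, map_div₀, Rat.cast_pow, Rat.cast_natCast, map_pow]
        exact div_le_one_of_le₀ (h O hqv) zero_le) hp hd rfl
  rw [hx, Rat.cast_mul, Rat.cast_pow, Rat.cast_natCast, norm_mul, Padic.norm_p_pow]
  exact mul_le_of_le_one_right (zpow_nonneg (Nat.cast_nonneg _) _) (Padic.norm_rat_le_one hden)

section Extension

variable {p : ℕ} [hp : Fact p.Prime]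

theorem norm_natCast_sub_iff {a i j : ℕ} :
    ‖(i : ℤ_[p]) - (j : ℤ_[p])‖ ≤ (p : ℝ) ^ (-(a : ℤ)) ↔ i ≡ j [MOD p ^ a] := by
  rw [PadicInt.norm_le_pow_iff_mem_span_pow, Ideal.mem_span_singleton, Nat.modEq_iff_dvd,
    Nat.cast_pow, ← PadicInt.pow_p_dvd_int_iff]
  push_cast
  rw [← neg_sub (j : ℤ_[p]), dvd_neg]

/-- **A strict contraction of `ℕ` extends uniquely to `ℤ_p`.** -/
theorem exists_padic_extension (v : ℕ → ℤ_[p])
    (h : ∀ a i j : ℕ, i ≡ j [MOD p ^ a] → ‖v i - v j‖ ≤ (p : ℝ) ^ (-((a + 1 : ℕ) : ℤ))) :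
    ∃ F : ℤ_[p] → ℤ_[p], Continuous F ∧ (∀ j : ℕ, F j = v j) ∧
      (∀ x y, ‖F x - F y‖ ≤ ‖x - y‖ / p) ∧
      ∀ G : ℤ_[p] → ℤ_[p], Continuous G → (∀ j : ℕ, G j = v j) → G = F := by
  have hp1 : (1 : ℝ) < p := by exact_mod_cast hp.out.one_lt
  have htend : Tendsto (fun a : ℕ => (p : ℝ) ^ (-(a : ℤ))) atTop (𝓝 0) := by
    simp only [zpow_neg, zpow_natCast, ← inv_pow]
    exact tendsto_pow_atTop_nhds_zero_of_lt_one (by positivity) (inv_lt_one_of_one_lt₀ hp1)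
  have happr : ∀ (x : ℤ_[p]) (a : ℕ), ‖x - (x.appr a : ℤ_[p])‖ ≤ (p : ℝ) ^ (-(a : ℤ)) := fun x a => by
    rw [PadicInt.norm_le_pow_iff_mem_span_pow]
    exact PadicInt.appr_spec a x
  have hc : ∀ x : ℤ_[p], CauchySeq fun a => v (x.appr a) := fun x => by
    refine cauchySeq_of_le_tendsto_0' (fun a => (p : ℝ) ^ (-(a : ℤ))) (fun a b hab => ?_) htend
    rw [dist_eq_norm]
    refine (h a _ _ (norm_natCast_sub_iff.1 (norm_sub_le_of (y := x) ?_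
      ((happr x b).trans (pow_neg_le hab))))).trans (pow_neg_le (Nat.le_succ a))
    rw [norm_sub_rev]
    exact happr x a
  obtain ⟨F, hF⟩ : ∃ F : ℤ_[p] → ℤ_[p], ∀ x, F x = limUnder atTop fun a => v (x.appr a) :=
    ⟨_, fun _ => rfl⟩
  have hFt : ∀ x, Tendsto (fun a => v (x.appr a)) atTop (𝓝 (F x)) := fun x =>
    hF x ▸ (hc x).tendsto_limUnder
  have hkey : ∀ (x : ℤ_[p]) (a j : ℕ), ‖x - (j : ℤ_[p])‖ ≤ (p : ℝ) ^ (-(a : ℤ)) →
      ‖F x - v j‖ ≤ (p : ℝ) ^ (-((a + 1 : ℕ) : ℤ)) := fun x a j hj => by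
    refine le_of_tendsto ((hFt x).sub_const (v j)).norm (eventually_atTop.2 ⟨a, fun b hb => ?_⟩)
    refine h a _ _ (norm_natCast_sub_iff.1 (norm_sub_le_of (y := x) ?_ hj))
    rw [norm_sub_rev]
    exact (happr x b).trans (pow_neg_le hb)
  have hval : ∀ j : ℕ, F j = v j := fun j => sub_eq_zero.1 (norm_le_zero_iff.1
    (ge_of_tendsto' htend fun a => (hkey _ a j (by rw [sub_self, norm_zero]; positivity)).trans
      (pow_neg_le (Nat.le_succ a))))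
  have hlip : ∀ x y, ‖F x - F y‖ ≤ ‖x - y‖ / p := fun x y => by
    rcases eq_or_ne x y with rfl | hne
    · simp
    obtain ⟨a, ha⟩ : ∃ a : ℕ, ‖x - y‖ = (p : ℝ) ^ (-(a : ℤ)) :=
      ⟨_, PadicInt.norm_eq_zpow_neg_valuation (sub_ne_zero.2 hne)⟩
    have hb : (p : ℝ) ^ (-((a + 1 : ℕ) : ℤ)) = ‖x - y‖ / p := by
      rw [ha, show (-((a + 1 : ℕ) : ℤ)) = -(a : ℤ) + -1 by push_cast; ring,
        zpow_add₀ (by positivity : (p : ℝ) ≠ 0), zpow_neg_one, div_eq_mul_inv]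
    rw [← hb]
    refine norm_sub_le_of (hkey x a _ (happr x a)) ?_
    rw [norm_sub_rev]
    refine hkey y a _ (norm_sub_le_of (y := x) ?_ (happr x a))
    rw [norm_sub_rev, ha]
  have hcont : Continuous F := (LipschitzWith.of_dist_le_mul (K := 1) fun x y => by
    rw [dist_eq_norm, dist_eq_norm, NNReal.coe_one, one_mul]
    exact (hlip x y).trans (div_le_self (norm_nonneg _) hp1.le)).continuous
  exact ⟨F, hcont, hval, hlip, fun G hG hGj => PadicInt.denseRange_natCast.equalizer hG hcont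
    (funext fun j => (hGj j).trans (hval j).symm)⟩

end Extension

variable {K : Type*} [Field K] [NumberField K] [IsTotallyReal K]
variable {𝔪 : Ideal (𝓞 K)} {p : ℕ} [NeZero p]

/-- **The congruence for classes.** -/
theorem val_class_strip (hp : p.Prime) (h5 : 5 ≤ p) (h𝔪 : 𝔪 ≠ ⊥) (hN : ¬p ∣ Ideal.absNorm 𝔪)
    {O : ValuationSubring ℂ} (hℓ : O.valuation (p : ℂ) < 1) {a j k : ℕ} (hk : 2 ≤ k)
    (haj : a + 2 ≤ j) (hmod : j ≡ k [MOD (p - 1) * p ^ a]) (hk2 : k = 2 → 2 ≤ finrank ℚ K)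
    (hj2 : j = 2 → 2 ≤ finrank ℚ K)
    (hadm : ¬(p - 1) ∣ 2 * (k * finrank ℚ K) ∨
      (Even (k * finrank ℚ K) ∧ ¬(p - 1) ∣ k * finrank ℚ K))
    {Z : RayClassGroup 𝔪 → ℂ → ℂ} (hZ : ∀ γ, IsClassExt h𝔪 γ (Z γ)) (γ : RayClassGroup 𝔪) :
    O.valuation (Z γ (1 - (j : ℂ)) - stripCombine p h𝔪 Z γ (1 - (k : ℂ))) ≤
      O.valuation (p : ℂ) ^ (a + 1) := by
  have := finite_rayClassGroup h𝔪
  have : Fintype (RayClassGroup 𝔪) := Fintype.ofFinite _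
  have := FA.Weight1.fintypeDual (U := RayClassGroup 𝔪)
  choose L hL using fun χ : RayClassGroup 𝔪 →* ℂˣ => exists_isLExt (isRayChar_rayCharFn h𝔪 χ)
  have hc : (Fintype.card (RayClassGroup 𝔪) : ℂ) ≠ 0 := Nat.cast_ne_zero.2 Fintype.card_ne_zero
  obtain ⟨c, hcdef⟩ : ∃ c : (RayClassGroup 𝔪 →* ℂˣ) → ℂ,
      ∀ χ, c χ = (Fintype.card (RayClassGroup 𝔪) : ℂ)⁻¹ * (χ γ⁻¹ : ℂ) := ⟨_, fun _ => rfl⟩
  have hval : ∀ A : Ideal (𝓞 K), A ≠ ⊥ →
      O.valuation (∑ χ, c χ * rayCharFn h𝔪 χ A) ≤ 1 := by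
    intro A hA
    by_cases hcA : A ⊔ 𝔪 = ⊤
    · obtain ⟨I, hI⟩ : ∃ I : coprimeIdeals 𝔪,
          I = ⟨⟨A, mem_nonZeroDivisors_iff_ne_zero.2 hA⟩, hcA⟩ := ⟨_, rfl⟩
      have e : ∀ χ : RayClassGroup 𝔪 →* ℂˣ, c χ * rayCharFn h𝔪 χ A =
          (Fintype.card (RayClassGroup 𝔪) : ℂ)⁻¹ * (χ (γ⁻¹ * rayClass h𝔪 I) : ℂ) := fun χ => by
        rw [map_mul, Units.val_mul, ← rayCharFn_apply h𝔪 χ I, hI, hcdef, mul_assoc]
      rw [Finset.sum_congr rfl fun χ _ => e χ, ← Finset.mul_sum]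
      have hsum : ∑ χ : RayClassGroup 𝔪 →* ℂˣ, (χ (γ⁻¹ * rayClass h𝔪 I) : ℂ) =
          if γ⁻¹ * rayClass h𝔪 I = 1 then (Fintype.card (RayClassGroup 𝔪) : ℂ) else 0 := by
        convert FA.Weight1.sum_char_apply (U := RayClassGroup 𝔪) _ using 2
        ext; simp
      rw [hsum]
      split_ifs
      · rw [inv_mul_cancel₀ hc, map_one]
      · rw [mul_zero, map_zero]
        exact zero_le
    · rw [Finset.sum_eq_zero fun χ _ => by
        rw [(isRayChar_rayCharFn h𝔪 χ).eq_zero_of_not hA hcA, mul_zero], map_zero]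
      exact zero_le
  have h1 := one_sub_ne_one (k := j) (by omega)
  have h2 := one_sub_ne_one (k := k) (by omega)
  have e1 : Z γ (1 - (j : ℂ)) = ∑ χ, c χ * L χ (1 - (j : ℂ)) := by
    simp only [hcdef, mul_assoc, ← Finset.mul_sum]
    rw [← class_eq_sum hZ hL γ h1, inv_mul_cancel_left₀ hc]
  have e2 : stripCombine p h𝔪 Z γ (1 - (k : ℂ)) =
      ∑ χ, c χ * stripExt p (rayCharFn h𝔪 χ) (L χ) (1 - (k : ℂ)) := by
    simp only [hcdef, mul_assoc, ← Finset.mul_sum]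
    rw [← stripCombine_eq_sum hp hN hZ hL γ h2, inv_mul_cancel_left₀ hc]
  rw [e1, e2]
  exact val_combination_strip hp hℓ h5 (fun χ => isRayChar_rayCharFn h𝔪 χ) h𝔪 hk haj hmod hk2 hj2
    hadm hN hval hL fun χ => isLExt_strip (isRayChar_rayCharFn h𝔪 χ) (hL χ)

/-- **The stripped values are rational.** -/
theorem stripCombine_rational (h𝔪 : 𝔪 ≠ ⊥) {Z : RayClassGroup 𝔪 → ℂ → ℂ}
    (hZ : ∀ γ, IsClassExt h𝔪 γ (Z γ)) (γ : RayClassGroup 𝔪) {k : ℕ} (hk : 1 ≤ k) :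
    ∃ r : ℚ, stripCombine p h𝔪 Z γ (1 - (k : ℂ)) = (r : ℂ) := by
  choose r hr using fun δ => FA.KlingenTwo.classValue_rational h𝔪 δ hk (hZ δ)
  refine ⟨∑ t ∈ (overPrimes K p).powerset, (-1) ^ t.card *
    (∏ v ∈ t, (Ideal.absNorm v.asIdeal : ℚ) ^ (k - 1)) *
      r (γ * (∏ v ∈ t, primeClass h𝔪 v)⁻¹), ?_⟩
  rw [stripCombine_one_sub h𝔪 Z γ hk, Rat.cast_sum]
  simp only [hr]
  push_cast
  rfl

/-- **The interpolation.** -/
theorem exists_class_padic [Fact p.Prime] (h5 : 5 ≤ p) (h𝔪 : 𝔪 ≠ ⊥)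
    (hN : ¬p ∣ Ideal.absNorm 𝔪) {k₀ : ℕ} (hk₀ : 2 ≤ k₀) (hk2 : k₀ = 2 → 2 ≤ finrank ℚ K)
    (hadm : ¬(p - 1) ∣ 2 * (k₀ * finrank ℚ K) ∨
      (Even (k₀ * finrank ℚ K) ∧ ¬(p - 1) ∣ k₀ * finrank ℚ K))
    {Z : RayClassGroup 𝔪 → ℂ → ℂ} (hZ : ∀ γ, IsClassExt h𝔪 γ (Z γ)) (γ : RayClassGroup 𝔪) :
    ∃ (F : ℤ_[p] → ℤ_[p]) (v v' : ℕ → ℚ),
      (∀ j, Z γ (1 - (kOf p k₀ j : ℂ)) = (v j : ℂ)) ∧
      (∀ j, stripCombine p h𝔪 Z γ (1 - (kOf p k₀ j : ℂ)) = (v' j : ℂ)) ∧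
      Continuous F ∧ (∀ j : ℕ, ((F j : ℤ_[p]) : ℚ_[p]) = (v' j : ℚ_[p])) ∧
      (∀ x y, ‖F x - F y‖ ≤ ‖x - y‖ / p) ∧
      (∀ (x : ℤ_[p]) (a j : ℕ), a + 2 ≤ kOf p k₀ j → ‖x - (j : ℤ_[p])‖ ≤ (p : ℝ) ^ (-(a : ℤ)) →
        ‖((F x : ℤ_[p]) : ℚ_[p]) - (v j : ℚ_[p])‖ ≤ (p : ℝ) ^ (-((a + 1 : ℕ) : ℤ))) ∧
      ∀ G : ℤ_[p] → ℤ_[p], Continuous G →
        (∀ j : ℕ, ((G j : ℤ_[p]) : ℚ_[p]) = (v' j : ℚ_[p])) → G = F := by
  have hp : p.Prime := Fact.out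
  have h2k : ∀ j, 2 ≤ kOf p k₀ j := fun j => hk₀.trans (Nat.le_add_right _ _)
  have hmod : ∀ {a i j : ℕ}, i ≡ j [MOD p ^ a] →
      kOf p k₀ i ≡ kOf p k₀ j [MOD (p - 1) * p ^ a] := fun h =>
    Nat.ModEq.add_left _ (Nat.ModEq.mul_left' _ h)
  have hk2' : ∀ j, kOf p k₀ j = 2 → 2 ≤ finrank ℚ K := fun j e => hk2 (by
    have : k₀ ≤ kOf p k₀ j := Nat.le_add_right _ _
    omega)
  have hadm' : ∀ j, ¬(p - 1) ∣ 2 * (kOf p k₀ j * finrank ℚ K) ∨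
      (Even (kOf p k₀ j * finrank ℚ K) ∧ ¬(p - 1) ∣ kOf p k₀ j * finrank ℚ K) := fun j => by
    refine adm_modEq h5 hp ?_ hadm
    exact ((Nat.modEq_iff_dvd' (Nat.le_add_right _ _)).2
      (by show p - 1 ∣ k₀ + (p - 1) * j - k₀
          rw [Nat.add_sub_cancel_left]; exact dvd_mul_right _ _)).symm
  choose v hv using fun j => FA.KlingenTwo.classValue_rational h𝔪 γ
    (show 1 ≤ kOf p k₀ j from one_le_two.trans (h2k j)) (hZ γ)
  choose v' hv' using fun j => stripCombine_rational (p := p) h𝔪 hZ γ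
    (show 1 ≤ kOf p k₀ j from one_le_two.trans (h2k j))
  have hcross : ∀ a i j : ℕ, a + 2 ≤ kOf p k₀ j → j ≡ i [MOD p ^ a] →
      ‖(v j : ℚ_[p]) - (v' i : ℚ_[p])‖ ≤ (p : ℝ) ^ (-((a + 1 : ℕ) : ℤ)) := fun a i j hj hij => by
    rw [← Rat.cast_sub]
    refine norm_rat_le _ fun O hO => ?_
    rw [Rat.cast_sub, ← hv, ← hv']
    exact val_class_strip hp h5 h𝔪 hN hO (h2k i) hj (hmod hij) (hk2' i) (hk2' j) (hadm' i) hZ γ
  have hlarge : ∀ a i : ℕ, ∃ m, a + 2 ≤ kOf p k₀ m ∧ m ≡ i [MOD p ^ a] := fun a i =>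
    ⟨i + p ^ a * (a + 2), by
      have h1 : a + 2 ≤ p ^ a * (a + 2) := Nat.le_mul_of_pos_left _ (pow_pos hp.pos a)
      have h2 : i + p ^ a * (a + 2) ≤ (p - 1) * (i + p ^ a * (a + 2)) :=
        Nat.le_mul_of_pos_left _ (by omega)
      unfold kOf
      omega, (Nat.modEq_iff_dvd' (Nat.le_add_right _ _)).2 (by simp) |>.symm⟩
  have hv'1 : ∀ i, ‖(v' i : ℚ_[p])‖ ≤ 1 := fun i => by
    obtain ⟨m, hm, hmi⟩ := hlarge 0 i
    have hvm : ‖(v m : ℚ_[p])‖ ≤ 1 := by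
      have h := norm_rat_le (p := p) (x := v m) 0 fun O hO => ?_
      · simpa using h
      · rw [pow_zero, ← hv]
        exact FA.ClassIntegral.Summary.class_value_integral_adm h𝔪 γ (one_le_two.trans (h2k m))
          (fun e => hk2' m (le_antisymm e (h2k m))) hp hO h5 (Or.inr (hadm' m)) hN (hZ γ).1 (hZ γ).2
    rw [← sub_sub_cancel (v m : ℚ_[p]) (v' i : ℚ_[p]), sub_eq_add_neg]
    refine (Padic.nonarchimedean _ _).trans (max_le hvm ?_)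
    rw [norm_neg]
    exact (hcross 0 i m hm hmi).trans (zpow_le_one_of_nonpos₀ (by exact_mod_cast hp.one_lt.le)
      (by omega))
  obtain ⟨w, hw⟩ : ∃ w : ℕ → ℤ_[p], ∀ i, (w i : ℚ_[p]) = (v' i : ℚ_[p]) :=
    ⟨fun i => ⟨_, hv'1 i⟩, fun _ => rfl⟩
  have hww : ∀ a i j : ℕ, i ≡ j [MOD p ^ a] → ‖w i - w j‖ ≤ (p : ℝ) ^ (-((a + 1 : ℕ) : ℤ)) :=
    fun a i j hij => by
      obtain ⟨m, hm, hmi⟩ := hlarge a i
      rw [PadicInt.norm_def, PadicInt.coe_sub, hw, hw,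
        ← sub_sub_sub_cancel_left (v' j : ℚ_[p]) (v' i : ℚ_[p]) (v m : ℚ_[p]), sub_eq_add_neg]
      refine (Padic.nonarchimedean _ _).trans (max_le (hcross a j m hm (hmi.trans hij)) ?_)
      rw [norm_neg]
      exact hcross a i m hm hmi
  obtain ⟨F, hFc, hFj, hFlip, hFu⟩ := exists_padic_extension w hww
  refine ⟨F, v, v', hv, hv', hFc, fun j => by rw [hFj, hw], hFlip, fun x a j hj hx => ?_,
    fun G hG hGj => hFu G hG fun j => Subtype.ext ((hGj j).trans (hw j).symm)⟩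
  have h1 : ‖((F x : ℤ_[p]) : ℚ_[p]) - (v' j : ℚ_[p])‖ ≤ (p : ℝ) ^ (-((a + 1 : ℕ) : ℤ)) := by
    rw [← hw, ← hFj, ← PadicInt.coe_sub, ← PadicInt.norm_def]
    refine (hFlip x j).trans ((div_le_div_of_nonneg_right hx (Nat.cast_nonneg p)).trans ?_)
    rw [show (-((a + 1 : ℕ) : ℤ)) = -(a : ℤ) + -1 by push_cast; ring,
      zpow_add₀ (Nat.cast_ne_zero.2 hp.ne_zero : (p : ℝ) ≠ 0), zpow_neg_one, ← div_eq_mul_inv]
  rw [← sub_sub_sub_cancel_right _ _ (v' j : ℚ_[p]), sub_eq_add_neg (_ - _)]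
  refine (Padic.nonarchimedean _ _).trans (max_le h1 ?_)
  rw [norm_neg]
  exact hcross a j j hj (Nat.ModEq.refl _)

end FA.RayPadicL

end
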