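import Fermat.Agent.RayPadicL.Cusps
import Fermat.Agent.WeightLevel.KummerValues

/-!
# The stripped values are the `p`-adic limits of the values

For a combination of characters modulo `𝔪`, integral at every ideal, and `p ≥ 5` prime to `N 𝔪` the
combination of the values at `1 - k`, `k ≥ 2`, of the characters without the primes over `p` is
congruent modulo `p ^ (a + 1)` to that of the values at `1 - j` of the characters, for every
`j ≥ a + 2` congruent to `k` modulo `(p - 1) p ^ a`.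
-/

set_option autoImplicit false
set_option linter.unusedSectionVars false
set_option linter.style.haveILetI false

noncomputable section

open NumberField InfinitePlace IsDedekindDomain Module Filter Complex
open scoped Real nonZeroDivisors Classical Topology

namespace FA.RayPadicL

open FA.HeckeFE FA.SiegelKlingen FA.HeckeCharFE FA.KlingenRay FA.KlingenIntegral FA.ClassIntegral
open FA.Hecke (IsRayChar)
open FA.PadicEulerFactor (pMul)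

variable {K : Type*} [Field K] [NumberField K] [IsTotallyReal K]

theorem normVal_level {J : (FractionalIdeal (𝓞 K)⁰ K)ˣ} {M M' : ℕ} [NeZero M] [NeZero M']
    (e : M = M') (k : ℕ) (Φ : K → ℂ) : normVal J M k Φ = normVal J M' k Φ := by
  subst e
  rfl

theorem dualScale_dualLat (J₀ : (FractionalIdeal (𝓞 K)⁰ K)ˣ) (M : ℕ) [NeZero M] :
    dualScale (dualLat J₀ M) = ((M : ℚ) ^ finrank ℚ K *
      FractionalIdeal.absNorm (J₀ : FractionalIdeal (𝓞 K)⁰ K))⁻¹ := by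
  have hd : ((discr K).natAbs : ℚ) ≠ 0 :=
    Nat.cast_ne_zero.2 (Int.natAbs_ne_zero.2 (discr_ne_zero K))
  rw [dualScale, absNorm_dualIdeal, dualScale, absNorm_pMul, mul_inv, mul_assoc,
    inv_mul_cancel₀ hd, mul_one]

/-- The term of a class. -/
theorem classTerm_eq (C : ClassGroup (𝓞 K)) (M : ℕ) [NeZero M] {k : ℕ} (hk : 1 ≤ k) (Φ : K → ℂ) :
    (feFactor K ⊤ k : ℂ) * ((M : ℂ) ^ (finrank ℚ K * (k - 1)) * classTerm C M 1 k Φ) =
      (2 * (-1) ^ k) ^ finrank ℚ K / (2 * (M : ℂ) ^ finrank ℚ K) *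
        ((((FractionalIdeal.absNorm (repIdeal K C : FractionalIdeal (𝓞 K)⁰ K))⁻¹ ^ (k - 1) : ℚ) : ℂ) *
          normVal (dualLat (repIdeal K C) M) M k (hatSum (repIdeal K C) M Φ)) := by
  have e := congrArg (fun q : ℚ => (q : ℂ))
    (term_eq (dualLat (repIdeal K C) M) (N := M * 1) (M ^ (finrank ℚ K * (k - 1))) hk)
  simp only [Rat.cast_mul, Rat.cast_natCast, Rat.cast_div, Rat.cast_intCast, dualScale_dualLat] at e
  push_cast at e
  rw [classTerm, normVal_level (mul_one M), ← mul_assoc ((M : ℂ) ^ _), ← mul_assoc, e]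
  have hM : (M : ℂ) ≠ 0 := Nat.cast_ne_zero.2 (NeZero.ne M)
  push_cast
  rw [mul_one, mul_inv, mul_pow, inv_pow, ← pow_mul]
  have hMp : (M : ℂ) ^ (finrank ℚ K * (k - 1)) ≠ 0 := pow_ne_zero _ hM
  have hA : ((FractionalIdeal.absNorm (repIdeal K C : FractionalIdeal (𝓞 K)⁰ K) : ℚ) : ℂ) ≠ 0 :=
    Rat.cast_ne_zero.2 fun e => (repIdeal K C).ne_zero (FractionalIdeal.absNorm_eq_zero_iff.1 e)
  field_simp
  rw [one_div, inv_pow, mul_pow, ← pow_mul]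
  field_simp

variable {𝔪 : Ideal (𝓞 K)} {S : Finset (InfinitePlace K)} {O : ValuationSubring ℂ} {p : ℕ}
variable {ι : Type*} {F : ι → Ideal (𝓞 K) →* ℂ} {P : Finset ι} {c : ι → ℂ}

/-- **The congruence for one parity.** -/
theorem val_parity_strip (hp : p.Prime) (hℓ : O.valuation (p : ℂ) < 1) (h5 : 5 ≤ p) (h𝔪 : 𝔪 ≠ ⊥)
    (hS : ∀ i ∈ P, HasSigns 𝔪 (F i) S) {a r k : ℕ} (hk : 2 ≤ k) (hk2 : k = 2 → 2 ≤ finrank ℚ K)
    (har : a + 1 + finrank ℚ K ≤ r) (hpar : HasParity S k)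
    (hadm : ¬(p - 1) ∣ 2 * (k * finrank ℚ K) ∨
      (Even (k * finrank ℚ K) ∧ ¬(p - 1) ∣ k * finrank ℚ K))
    (hN : ¬p ∣ Ideal.absNorm 𝔪)
    (hval : ∀ A : Ideal (𝓞 K), A ≠ ⊥ → O.valuation (∑ i ∈ P, c i * F i A) ≤ 1)
    {Z Z' : ι → ℂ → ℂ} (hZ : ∀ i ∈ P, IsLExt (F i) (Z i))
    (hZ' : ∀ i ∈ P, IsLExt (stripChar p (F i)) (Z' i)) :
    O.valuation (∑ i ∈ P, c i * Z i (1 - ((k + (p - 1) * p ^ r : ℕ) : ℂ)) -
      ∑ i ∈ P, c i * Z' i (1 - (k : ℂ))) ≤ O.valuation (p : ℂ) ^ (a + 1) := by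
  have : NeZero p := ⟨hp.ne_zero⟩
  have : NeZero (Ideal.absNorm 𝔪) := ⟨fun e => h𝔪 (Ideal.absNorm_eq_zero_iff.1 e)⟩
  obtain ⟨N, hNdef⟩ : ∃ N, N = Ideal.absNorm 𝔪 := ⟨_, rfl⟩
  have : NeZero N := ⟨hNdef ▸ NeZero.ne _⟩
  have hNm : (N : 𝓞 K) ∈ 𝔪 := hNdef ▸ Ideal.absNorm_mem 𝔪
  rw [← hNdef] at hN
  obtain ⟨k', hk'⟩ : ∃ k', k' = k + (p - 1) * p ^ r := ⟨_, rfl⟩
  rw [← hk']
  have hE : Even ((p - 1) * p ^ r) := (hp.even_sub_one (by omega)).mul_right _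
  have hpar' : HasParity S k' := by
    rw [HasParity, hk', Nat.even_add, Nat.odd_add]
    rcases hpar with ⟨he, h⟩ | ⟨ho, h⟩
    · exact Or.inl ⟨⟨fun _ => hE, fun _ => he⟩, h⟩
    · exact Or.inr ⟨⟨fun _ => hE, fun _ => ho⟩, h⟩
  have hadm' : FA.WeightLevel.Admissible p (k' * finrank ℚ K) := by
    refine Or.inr ?_
    rw [hk', add_mul]
    exact FA.WeightLevel.adm_congr (hp.even_sub_one (by omega))
      ((dvd_mul_right _ _).mul_right _) hadm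
  have hS' : ∀ i ∈ P, HasSigns (𝔪 * Ideal.span {(p : 𝓞 K)}) (stripChar p (F i)) S :=
    fun i hi => hasSigns_strip (hS i hi) hp.ne_zero
  have hNm' : ((p * N : ℕ) : 𝓞 K) ∈ 𝔪 * Ideal.span {(p : 𝓞 K)} := by
    rw [Nat.cast_mul, mul_comm (p : 𝓞 K)]
    exact Ideal.mul_mem_mul hNm (Ideal.mem_span_singleton_self _)
  rw [comb_eq_classTerm hS (by omega) hpar' hNm hZ,
    comb_eq_classTerm hS' hk hpar hNm' hZ', ← Finset.sum_sub_distrib]
  refine Valuation.map_sum_le _ fun C _ => ?_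
  obtain ⟨J₀, hJ₀⟩ : ∃ J₀, J₀ = repIdeal K C := ⟨_, rfl⟩
  obtain ⟨res, hres⟩ : ∃ res, res = combRes 𝔪 F S P c J₀ := ⟨_, rfl⟩
  have hper : IsPer J₀ N k res := hres ▸ isPer_combRes hS hpar hNm J₀
  have hper' : IsPer J₀ N k' res := hres ▸ isPer_combRes hS hpar' hNm J₀
  have hrv : ∀ x ∈ (J₀ : Set K), O.valuation (res x) ≤ 1 := fun x hx =>
    hres ▸ val_combRes h𝔪 hS hval J₀ hx
  have hhat : hatSum J₀ (p * N)
      (combRes (𝔪 * Ideal.span {(p : 𝓞 K)}) (fun i => stripChar p (F i)) S P c J₀) =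
      hatSum J₀ (p * N) (stripRes p J₀ res) := funext fun ν =>
    Finset.sum_congr rfl fun x hx => by
      rw [combRes_strip h𝔪 hS (residues_mem J₀ _ hx), hres]
  rw [classTerm_eq C N (by omega : 1 ≤ k'), classTerm_eq C (p * N) (by omega : 1 ≤ k), ← hJ₀, hhat,
    ← hres]
  have hmain := val_normVal_strip hp hℓ h5 hN hk hk2 har hk' hadm hper hper' hrv
  have hX : O.valuation (((dualScale (dualLat J₀ N) ^ (k' - 1) : ℚ) : ℂ) *
      normVal (dualLat J₀ N) N k' (hatSum J₀ N res)) ≤ 1 := by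
    refine val_of_eisData hp hℓ h5 hN (by omega) hadm' ?_ fun d hd => val_hatSum hrv hd
    rcases Nat.eq_or_lt_of_le (show 2 ≤ k' by omega) with e | e
    · subst e
      exact eisData_two (isPer_hat hper') (hk2 (by omega))
    · exact eisData_normVal (isPer_hat hper') e
  rw [dualScale_dualLat] at hmain
  rw [dualScale_dualLat] at hX
  obtain ⟨n, hn⟩ : ∃ n, n = finrank ℚ K := ⟨_, rfl⟩
  obtain ⟨A₀, hA₀⟩ : ∃ A₀ : ℚ,
      A₀ = (FractionalIdeal.absNorm (J₀ : FractionalIdeal (𝓞 K)⁰ K))⁻¹ := ⟨_, rfl⟩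
  obtain ⟨X, hX'⟩ : ∃ X : ℂ, X = (((((N : ℚ) ^ n)⁻¹ * A₀) ^ (k' - 1) : ℚ) : ℂ) *
      normVal (dualLat J₀ N) N k' (hatSum J₀ N res) := ⟨_, rfl⟩
  obtain ⟨Y, hY⟩ : ∃ Y : ℂ, Y = ((p : ℂ) ^ n)⁻¹ * ((((((N : ℚ) ^ n)⁻¹ * A₀) ^ (k - 1) : ℚ) : ℂ) *
      normVal (dualLat J₀ (p * N)) (p * N) k (hatSum J₀ (p * N) (stripRes p J₀ res))) := ⟨_, rfl⟩
  simp only [mul_inv, ← hn, ← hA₀] at hmain hX ⊢
  rw [← hX', ← hY] at hmain
  rw [← hX'] at hX
  obtain ⟨κ, hκ⟩ : ∃ κ : ℂ, κ = (2 * (-1) ^ k) ^ n / (2 * (N : ℂ) ^ n) := ⟨_, rfl⟩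
  have hsgn : ((-1 : ℂ) ^ k') = (-1) ^ k := by rw [hk', pow_add, hE.neg_one_pow, mul_one]
  have hN0 : (N : ℂ) ≠ 0 := Nat.cast_ne_zero.2 (NeZero.ne N)
  have hp0 : (p : ℂ) ≠ 0 := Nat.cast_ne_zero.2 hp.ne_zero
  have e : (2 * (-1 : ℂ) ^ k') ^ n / (2 * (N : ℂ) ^ n) *
        (((A₀ ^ (k' - 1) : ℚ) : ℂ) * normVal (dualLat J₀ N) N k' (hatSum J₀ N res)) -
      (2 * (-1 : ℂ) ^ k) ^ n / (2 * ((p * N : ℕ) : ℂ) ^ n) * (((A₀ ^ (k - 1) : ℚ) : ℂ) *
        normVal (dualLat J₀ (p * N)) (p * N) k (hatSum J₀ (p * N) (stripRes p J₀ res))) =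
      κ * (((((N : ℚ) ^ n : ℚ) : ℂ) ^ (k' - 1) - (((N : ℚ) ^ n : ℚ) : ℂ) ^ (k - 1)) * X +
        (((N : ℚ) ^ n : ℚ) : ℂ) ^ (k - 1) * (X - Y)) := by
    rw [hκ, hX', hY, hsgn]
    push_cast
    rw [mul_pow ((N : ℂ) ^ n)⁻¹, mul_pow ((N : ℂ) ^ n)⁻¹, inv_pow, inv_pow, mul_pow (p : ℂ) _ n]
    field_simp
    ring
  rw [e, map_mul]
  have hNv : O.valuation (N : ℂ) = 1 := val_natCast_eq_one hp hℓ hN
  have hκv : O.valuation κ ≤ 1 := by
    have h2 : O.valuation (2 : ℂ) = 1 := by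
      rw [show (2 : ℂ) = ((2 : ℕ) : ℂ) by norm_num]
      exact val_natCast_eq_one hp hℓ fun h => by
        have := Nat.le_of_dvd two_pos h
        omega
    rw [hκ, map_div₀, map_pow, map_mul, map_pow, Valuation.map_neg, map_one, one_pow, mul_one, h2,
      one_pow, map_mul, h2, one_mul, map_pow, hNv, one_pow, div_one]
  have hM : O.valuation ((((N : ℚ) ^ n : ℚ)) : ℂ) = 1 := by
    rw [Rat.cast_pow, Rat.cast_natCast, map_pow, hNv, one_pow]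
  refine (mul_le_of_le_one_left' hκv).trans (O.valuation.map_add_le ?_ ?_)
  · rw [map_mul]
    refine (mul_le_of_le_one_right' hX).trans (val_unit_pow_sub hp hℓ hM (by omega) ?_)
    rw [show k' - 1 - (k - 1) = (p - 1) * p ^ r by omega]
    exact mul_dvd_mul_left _ (pow_dvd_pow _ (by omega))
  · rw [map_mul, map_pow, hM, one_pow, one_mul]
    exact hmain

/-- Congruent weights have the same condition. -/
theorem adm_modEq (h5 : 5 ≤ p) (hp : p.Prime) {j k n : ℕ} (h : j ≡ k [MOD p - 1])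
    (hadm : ¬(p - 1) ∣ 2 * (k * n) ∨ (Even (k * n) ∧ ¬(p - 1) ∣ k * n)) :
    ¬(p - 1) ∣ 2 * (j * n) ∨ (Even (j * n) ∧ ¬(p - 1) ∣ j * n) := by
  have h1 : j * n ≡ k * n [MOD p - 1] := h.mul_right n
  have h2 : Even (j * n) ↔ Even (k * n) := by
    simp only [Nat.even_iff]
    rw [h1.of_dvd (hp.even_sub_one (by omega)).two_dvd]
  rw [(h1.mul_left 2).dvd_iff dvd_rfl, h1.dvd_iff dvd_rfl, h2]
  exact hadm

/-- **The stripped congruence.** -/
theorem val_combination_strip [Fintype ι] (hp : p.Prime) (hℓ : O.valuation (p : ℂ) < 1)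
    (h5 : 5 ≤ p) (hF : ∀ i, IsRayChar 𝔪 (F i)) (h𝔪 : 𝔪 ≠ ⊥) {a j k : ℕ} (hk : 2 ≤ k)
    (haj : a + 2 ≤ j) (hmod : j ≡ k [MOD (p - 1) * p ^ a]) (hk2 : k = 2 → 2 ≤ finrank ℚ K)
    (hj2 : j = 2 → 2 ≤ finrank ℚ K)
    (hadm : ¬(p - 1) ∣ 2 * (k * finrank ℚ K) ∨
      (Even (k * finrank ℚ K) ∧ ¬(p - 1) ∣ k * finrank ℚ K))
    (hN : ¬p ∣ Ideal.absNorm 𝔪)
    (hval : ∀ A : Ideal (𝓞 K), A ≠ ⊥ → O.valuation (∑ i, c i * F i A) ≤ 1)
    {Z Z' : ι → ℂ → ℂ} (hZ : ∀ i, IsLExt (F i) (Z i))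
    (hZ' : ∀ i, IsLExt (stripChar p (F i)) (Z' i)) :
    O.valuation (∑ i, c i * Z i (1 - (j : ℂ)) - ∑ i, c i * Z' i (1 - (k : ℂ))) ≤
      O.valuation (p : ℂ) ^ (a + 1) := by
  obtain ⟨r, hr⟩ : ∃ r, r = a + 1 + finrank ℚ K := ⟨_, rfl⟩
  obtain ⟨k', hk'⟩ : ∃ k', k' = k + (p - 1) * p ^ r := ⟨_, rfl⟩
  have hk'a : a + 3 ≤ k' := by
    have h1 : r < p ^ r := Nat.lt_pow_self hp.one_lt
    have h2 : p ^ r ≤ (p - 1) * p ^ r := Nat.le_mul_of_pos_left _ (by omega)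
    omega
  have hmodk : k' ≡ k [MOD (p - 1) * p ^ a] :=
    ((Nat.modEq_iff_dvd' (by omega)).2 (by
      rw [hk', Nat.add_sub_cancel_left]
      exact mul_dvd_mul_left _ (pow_dvd_pow _ (by omega)))).symm
  have hjk : j ≡ k' [MOD (p - 1) * p ^ a] := hmod.trans hmodk.symm
  have hkum : O.valuation (∑ i, c i * Z i (1 - (j : ℂ)) - ∑ i, c i * Z i (1 - (k' : ℂ))) ≤
      O.valuation (p : ℂ) ^ (a + 1) := by
    rcases le_total j k' with hle | hle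
    · rw [Valuation.map_sub_swap]
      exact FA.WeightLevel.val_combination_sub hp hℓ h5 hF h𝔪 haj hle
        ((Nat.modEq_iff_dvd' hle).1 hjk) hj2 (adm_modEq h5 hp hmod.of_mul_right hadm) hN hval hZ
    · exact FA.WeightLevel.val_combination_sub hp hℓ h5 hF h𝔪 (by omega) hle
        ((Nat.modEq_iff_dvd' hle).1 hjk.symm) (fun e => hk2 (by omega))
        (adm_modEq h5 hp hmodk.of_mul_right hadm) hN hval hZ
  obtain ⟨P, S, hpar, hS, hvalP, hout⟩ := exists_parity_signs hp hℓ h5 hF h𝔪 k hval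
  have hev : Even k' ↔ Even k := by
    simp only [Nat.even_iff]
    rw [hmodk.of_dvd ((hp.even_sub_one (by omega)).two_dvd.trans (dvd_mul_right _ _))]
  have hPz : ∑ i, c i * Z i (1 - (k' : ℂ)) = ∑ i ∈ P, c i * Z i (1 - (k' : ℂ)) :=
    (Finset.sum_subset (Finset.subset_univ P) fun i _ hi => by
      obtain ⟨T, hT, hTp⟩ := hout i hi
      rw [value_zero_of_not_parity hT (by omega : 1 ≤ k') (fun e => absurd e (by omega))
        (fun h => hTp (by rwa [HasParity, ← Nat.not_even_iff_odd, ← hev, Nat.not_even_iff_odd]))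
        (hZ i), mul_zero]).symm
  have hPz' : ∑ i, c i * Z' i (1 - (k : ℂ)) = ∑ i ∈ P, c i * Z' i (1 - (k : ℂ)) :=
    (Finset.sum_subset (Finset.subset_univ P) fun i _ hi => by
      obtain ⟨T, hT, hTp⟩ := hout i hi
      rw [value_zero_of_not_parity (hasSigns_strip hT hp.ne_zero) (by omega : 1 ≤ k)
        (fun e => absurd e (by omega)) hTp (hZ' i), mul_zero]).symm
  have hmain := val_parity_strip hp hℓ h5 h𝔪 hS (a := a) hk hk2 hr.ge hpar hadm hN hvalP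
    (fun i _ => hZ i) fun i _ => hZ' i
  rw [← hk', ← hPz, ← hPz'] at hmain
  rw [← sub_add_sub_cancel _ (∑ i, c i * Z i (1 - (k' : ℂ))) _]
  exact O.valuation.map_add_le hkum hmain

end FA.RayPadicL

end
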